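import Fermat.Agent.S16.NE.Defs
import Fermat.Prelude.Def_ModularCurve_ModularUnit
import Fermat.Prelude.Thm_CongruenceSubgroup_one_mem_strictPeriods_Gamma0

/-!
# S16, non-existence half: the arithmetic assembly

`main_of_noConst`: if for every prime `l` the constant `1` is not a weight-two form on `Γ₀(p)`
modulo `l ^ (v_l(24 / gcd(p-1,12)) + 1)` (`NoConst`), then every `G ∈ M₂(Γ₀(p))` with
`q`-expansion `(p - 1) + 24 m ∑_{k ≥ 1} z_k q^k` (`z_k ∈ ℤ`) has `m ∣ eisensteinNumerator p`.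
-/

set_option autoImplicit false

open UpperHalfPlane CongruenceSubgroup
open scoped MatrixGroups ModularForm

namespace Fermat.Agent.S16.NE

/-- `q`-expansion coefficients of a scalar multiple of a modular form on `Γ₀(p)`. -/
theorem coeff_qExpansion_smul (p : ℕ) [NeZero p] (c : ℂ) (G : ModularForm (Gamma0 p) 2) (k : ℕ) :
    (qExpansion 1 ((c • G : ModularForm (Gamma0 p) 2) : ℍ → ℂ)).coeff k =
      c * (qExpansion 1 G).coeff k := by
  have hsum : ∀ τ : ℍ, HasSum (fun m ↦ (c * (qExpansion 1 G).coeff m) •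
      Function.Periodic.qParam 1 (τ : ℂ) ^ m) ((c • G : ModularForm (Gamma0 p) 2) τ) := by
    intro τ
    have h2 := (ModularForm.hasSum_qExpansion G one_pos
      (CongruenceSubgroup.one_mem_strictPeriods_Gamma0 p) τ).mul_left c
    have hfun : (fun m ↦ (c * (qExpansion 1 G).coeff m) • Function.Periodic.qParam 1 (τ : ℂ) ^ m) =
        fun b ↦ c * ((qExpansion 1 G).coeff b * Function.Periodic.qParam 1 (τ : ℂ) ^ b) := by
      funext m
      simp only [smul_eq_mul]
      ring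
    rw [hfun]
    exact h2
  exact (ModularFormClass.qExpansion_coeff_unique one_pos
    (CongruenceSubgroup.one_mem_strictPeriods_Gamma0 p) hsum k).symm

/-- The arithmetic core: `24 m z / (p - 1) ∈ l ^ (v_l(24/ν) + 1) ℤ_(l)` when `v_l(m) > v_l(n)`,
`ν = gcd(p-1,12)`, `n = (p-1)/ν`. -/
theorem ldiv_of_factorization_lt {p l m : ℕ} (hp : 2 ≤ p) (hl : l.Prime) (hm : m ≠ 0)
    (hlt : ((p - 1) / Nat.gcd (p - 1) 12).factorization l < m.factorization l) (z : ℤ) :
    LDiv l (padicValNat l (24 / Nat.gcd (p - 1) 12) + 1)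
      (((p : ℂ) - 1)⁻¹ * (24 * (m : ℂ) * z)) := by
  set ν : ℕ := Nat.gcd (p - 1) 12 with hν
  set n : ℕ := (p - 1) / ν with hn
  set t : ℕ := 24 / ν with ht
  have hp1 : p - 1 ≠ 0 := by omega
  have hνdvd : ν ∣ p - 1 := Nat.gcd_dvd_left _ _
  have hν12 : ν ∣ 12 := Nat.gcd_dvd_right _ _
  have hν24 : ν ∣ 24 := hν12.trans (by norm_num)
  have hνpos : 0 < ν := Nat.gcd_pos_of_pos_right _ (by norm_num)
  have hνn : ν * n = p - 1 := Nat.mul_div_cancel' hνdvd
  have hνt : ν * t = 24 := Nat.mul_div_cancel' hν24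
  have hn0 : n ≠ 0 := by
    intro h0
    rw [h0, mul_zero] at hνn
    exact hp1 hνn.symm
  have ht0 : t ≠ 0 := by
    intro h0
    rw [h0, mul_zero] at hνt
    norm_num at hνt
  -- `n = l ^ e * n'` with `l ∤ n'`
  obtain ⟨e, n', hn', hne⟩ := Nat.exists_eq_pow_mul_and_not_dvd hn0 l hl.ne_one
  have he : n.factorization l = e := by
    have hn'0 : n' ≠ 0 := by
      rintro rfl
      rw [mul_zero] at hne
      exact hn0 hne
    rw [hne, Nat.factorization_mul (pow_ne_zero _ hl.ne_zero) hn'0, Nat.factorization_pow,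
      Finsupp.add_apply, Finsupp.smul_apply, hl.factorization_self,
      Nat.factorization_eq_zero_of_not_dvd hn']
    simp
  -- `l ^ (e + 1) ∣ m`
  have hm1 : l ^ (e + 1) ∣ m := by
    rw [hl.pow_dvd_iff_le_factorization hm]
    omega
  obtain ⟨m₁, hm₁⟩ := hm1
  -- `l ^ v_l(t) ∣ t`
  obtain ⟨t₁, ht₁⟩ := pow_padicValNat_dvd (p := l) (n := t)
  refine ⟨(t₁ : ℤ) * m₁ * z, (n' : ℤ), ?_, ?_⟩
  · exact_mod_cast hn'
  · have hpC : ((p : ℂ) - 1) = (ν : ℂ) * (n : ℂ) := by
      have h := congrArg (fun x : ℕ => (x : ℂ)) hνn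
      simp only [Nat.cast_mul] at h
      rw [h, Nat.cast_sub (by omega : 1 ≤ p)]
      simp
    have h24 : (24 : ℂ) = (ν : ℂ) * (t : ℂ) := by
      have h := congrArg (fun x : ℕ => (x : ℂ)) hνt
      simp only [Nat.cast_mul] at h
      rw [h]
      norm_num
    have hnC : (n : ℂ) = (l : ℂ) ^ e * (n' : ℂ) := by
      have h := congrArg (fun x : ℕ => (x : ℂ)) hne
      simpa using h
    have hmC : (m : ℂ) = (l : ℂ) ^ (e + 1) * (m₁ : ℂ) := by
      have h := congrArg (fun x : ℕ => (x : ℂ)) hm₁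
      simpa using h
    have htC : (t : ℂ) = (l : ℂ) ^ padicValNat l t * (t₁ : ℂ) := by
      have h := congrArg (fun x : ℕ => (x : ℂ)) ht₁
      simpa using h
    have hνC : (ν : ℂ) ≠ 0 := by exact_mod_cast hνpos.ne'
    have hlC : (l : ℂ) ≠ 0 := by exact_mod_cast hl.ne_zero
    have hn'C : (n' : ℂ) ≠ 0 := by
      intro h0
      have : n' = 0 := by exact_mod_cast h0
      rw [this, mul_zero] at hne
      exact hn0 hne
    rw [hpC, h24, hnC, hmC, htC]
    push_cast
    field_simp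
    ring

/-- **(NE), arithmetic assembly.**  If for every prime `l` the constant `1` is not a modular form
of weight two on `Γ₀(p)` modulo `l ^ (v_l(24 / gcd(p-1,12)) + 1)`, then a form
`G = (p - 1) + 24 m ∑_{k ≥ 1} z_k q^k ∈ M₂(Γ₀(p))` (`z_k ∈ ℤ`) forces `m ∣ (p-1)/gcd(p-1,12)`. -/
theorem main_of_noConst (p : ℕ) [Fact p.Prime]
    (h : ∀ l : ℕ, l.Prime → NoConst p l (padicValNat l (24 / Nat.gcd (p - 1) 12) + 1))
    (m : ℕ) (G : ModularForm (Gamma0 p) 2)
    (h0 : (qExpansion 1 G).coeff 0 = (p : ℂ) - 1)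
    (hn : ∀ k : ℕ, k ≠ 0 → ∃ z : ℤ, (qExpansion 1 G).coeff k = 24 * (m : ℂ) * z) :
    m ∣ ModularCurve.eisensteinNumerator p := by
  have hp : p.Prime := Fact.out
  have hp2 : 2 ≤ p := hp.two_le
  have : NeZero p := ⟨hp.ne_zero⟩
  have hpC : ((p : ℂ) - 1) ≠ 0 := by
    have h1 : ((p : ℂ) - 1) = ((p - 1 : ℕ) : ℂ) := by
      rw [Nat.cast_sub (by omega : 1 ≤ p)]
      simp
    rw [h1]
    exact_mod_cast (by omega : p - 1 ≠ 0)
  -- the normalised form `H = G / (p - 1)`
  set H : ModularForm (Gamma0 p) 2 := ((p : ℂ) - 1)⁻¹ • G with hH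
  have hH0 : (qExpansion 1 H).coeff 0 = 1 := by
    rw [hH, coeff_qExpansion_smul, h0, inv_mul_cancel₀ hpC]
  have hHk : ∀ k : ℕ, k ≠ 0 → ∃ z : ℤ,
      (qExpansion 1 H).coeff k = ((p : ℂ) - 1)⁻¹ * (24 * (m : ℂ) * z) := by
    intro k hk
    obtain ⟨z, hz⟩ := hn k hk
    exact ⟨z, by rw [hH, coeff_qExpansion_smul, hz]⟩
  rcases Nat.eq_zero_or_pos m with rfl | hm
  · -- `m = 0`: `H` is congruent to `1` modulo everything
    exfalso
    refine h 2 Nat.prime_two H ⟨hH0, fun k hk => ?_⟩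
    obtain ⟨z, hz⟩ := hHk k hk
    rw [hz]
    simp only [Nat.cast_zero, mul_zero, zero_mul]
    exact LDiv.zero Nat.prime_two _
  · by_contra hndvd
    have hm0 : m ≠ 0 := hm.ne'
    have hn0 : ModularCurve.eisensteinNumerator p ≠ 0 := by
      unfold ModularCurve.eisensteinNumerator
      have hνdvd : Nat.gcd (p - 1) 12 ∣ p - 1 := Nat.gcd_dvd_left _ _
      have hνpos : 0 < Nat.gcd (p - 1) 12 := Nat.gcd_pos_of_pos_right _ (by norm_num)
      have hle : Nat.gcd (p - 1) 12 ≤ p - 1 := Nat.le_of_dvd (by omega) hνdvd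
      exact (Nat.div_pos hle hνpos).ne'
    have hfac : ¬ m.factorization ≤ (ModularCurve.eisensteinNumerator p).factorization :=
      fun hle => hndvd ((Nat.factorization_le_iff_dvd hm0 hn0).mp hle)
    rw [Finsupp.le_def] at hfac
    push Not at hfac
    obtain ⟨l, hl⟩ := hfac
    have hlprime : l.Prime := by
      by_contra hnp
      rw [Nat.factorization_eq_zero_of_not_prime m hnp] at hl
      exact absurd hl (Nat.not_lt_zero _)
    refine h l hlprime H ⟨hH0, fun k hk => ?_⟩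
    obtain ⟨z, hz⟩ := hHk k hk
    rw [hz]
    exact ldiv_of_factorization_lt hp2 hlprime hm0 hl z

end Fermat.Agent.S16.NE
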