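import Mathlib

/-!
# S16, non-existence half (NE): interface

`LDiv l s x`   : the complex number `x` lies in `l ^ s • ℤ_(l)` (`ℤ_(l)` = rationals with
                 denominator prime to `l`).
`IsOneMod p l s G` : `G ∈ M₂(Γ₀(p))` has `q`-expansion in `1 + l ^ s q ℤ_(l)[[q]]`.
`NoConst p l s`    : there is no such `G`.

The case files `CaseA.lean`, …, `CaseD.lean` prove `NoConst p l s` in the various cases; the file
`Main.lean` assembles them into `NE.main`.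
-/

set_option autoImplicit false

open UpperHalfPlane CongruenceSubgroup
open scoped MatrixGroups ModularForm

namespace Fermat.Agent.S16.NE

/-- `x ∈ l ^ s • ℤ_(l)`, as a statement about the complex number `x`. -/
def LDiv (l s : ℕ) (x : ℂ) : Prop :=
  ∃ a b : ℤ, ¬ (l : ℤ) ∣ b ∧ x * b = (l : ℂ) ^ s * a

/-- `G ∈ M₂(Γ₀(p))` has constant term `1` and all higher coefficients in `l ^ s • ℤ_(l)`. -/
def IsOneMod (p l s : ℕ) (G : ModularForm (Gamma0 p) 2) : Prop :=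
  (qExpansion 1 G).coeff 0 = 1 ∧ ∀ k : ℕ, k ≠ 0 → LDiv l s ((qExpansion 1 G).coeff k)

/-- "The constant `1` is not a modular form of weight two on `Γ₀(p)` modulo `l ^ s`." -/
def NoConst (p l s : ℕ) : Prop :=
  ∀ G : ModularForm (Gamma0 p) 2, ¬ IsOneMod p l s G

variable {l : ℕ}

theorem not_dvd_one (hl : l.Prime) : ¬ (l : ℤ) ∣ 1 := by
  intro h
  have h1 : l ∣ 1 := by exact_mod_cast h
  exact hl.one_lt.ne' (Nat.dvd_one.mp h1)

theorem not_dvd_mul (hl : l.Prime) {b c : ℤ} (hb : ¬ (l : ℤ) ∣ b) (hc : ¬ (l : ℤ) ∣ c) :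
    ¬ (l : ℤ) ∣ b * c := by
  intro h
  rcases (Nat.prime_iff_prime_int.mp hl).dvd_or_dvd h with h | h
  · exact hb h
  · exact hc h

theorem LDiv.of_int (hl : l.Prime) (s : ℕ) (a : ℤ) : LDiv l s ((l : ℂ) ^ s * a) :=
  ⟨a, 1, not_dvd_one hl, by simp⟩

theorem LDiv.zero (hl : l.Prime) (s : ℕ) : LDiv l s 0 :=
  ⟨0, 1, not_dvd_one hl, by simp⟩

theorem LDiv.intCast (hl : l.Prime) (a : ℤ) : LDiv l 0 (a : ℂ) :=
  ⟨a, 1, not_dvd_one hl, by simp⟩

theorem LDiv.natCast (hl : l.Prime) (a : ℕ) : LDiv l 0 (a : ℂ) :=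
  ⟨a, 1, not_dvd_one hl, by simp⟩

theorem LDiv.one (hl : l.Prime) : LDiv l 0 (1 : ℂ) :=
  ⟨1, 1, not_dvd_one hl, by simp⟩

theorem LDiv.add (hl : l.Prime) {s : ℕ} {x y : ℂ} (hx : LDiv l s x) (hy : LDiv l s y) :
    LDiv l s (x + y) := by
  obtain ⟨a, b, hb, h1⟩ := hx
  obtain ⟨a', b', hb', h2⟩ := hy
  refine ⟨a * b' + a' * b, b * b', not_dvd_mul hl hb hb', ?_⟩
  push_cast
  linear_combination (b' : ℂ) * h1 + (b : ℂ) * h2

theorem LDiv.neg {s : ℕ} {x : ℂ} (hx : LDiv l s x) : LDiv l s (-x) := by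
  obtain ⟨a, b, hb, h1⟩ := hx
  refine ⟨-a, b, hb, ?_⟩
  push_cast
  linear_combination -h1

theorem LDiv.sub (hl : l.Prime) {s : ℕ} {x y : ℂ} (hx : LDiv l s x) (hy : LDiv l s y) :
    LDiv l s (x - y) := by
  rw [sub_eq_add_neg]
  exact hx.add hl hy.neg

theorem LDiv.mul (hl : l.Prime) {s t : ℕ} {x y : ℂ} (hx : LDiv l s x) (hy : LDiv l t y) :
    LDiv l (s + t) (x * y) := by
  obtain ⟨a, b, hb, h1⟩ := hx
  obtain ⟨a', b', hb', h2⟩ := hy
  refine ⟨a * a', b * b', not_dvd_mul hl hb hb', ?_⟩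
  push_cast
  rw [pow_add]
  linear_combination (y * b') * h1 + ((l : ℂ) ^ s * a) * h2

theorem LDiv.mul_left (hl : l.Prime) {s : ℕ} {x y : ℂ} (hx : LDiv l 0 x) (hy : LDiv l s y) :
    LDiv l s (x * y) := by
  simpa using hx.mul hl hy

theorem LDiv.mul_right (hl : l.Prime) {s : ℕ} {x y : ℂ} (hx : LDiv l s x) (hy : LDiv l 0 y) :
    LDiv l s (x * y) := by
  simpa using hx.mul hl hy

theorem LDiv.mono {s t : ℕ} (h : t ≤ s) {x : ℂ} (hx : LDiv l s x) : LDiv l t x := by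
  obtain ⟨a, b, hb, h1⟩ := hx
  refine ⟨(l : ℤ) ^ (s - t) * a, b, hb, ?_⟩
  push_cast
  rw [h1, ← mul_assoc, ← pow_add, Nat.add_sub_cancel' h]

theorem LDiv.sum (hl : l.Prime) {s : ℕ} {ι : Type*} (S : Finset ι) (f : ι → ℂ)
    (h : ∀ i ∈ S, LDiv l s (f i)) : LDiv l s (∑ i ∈ S, f i) := by
  classical
  induction S using Finset.induction_on with
  | empty => simpa using LDiv.zero hl s
  | insert a S ha ih =>
    rw [Finset.sum_insert ha]
    exact (h a (Finset.mem_insert_self a S)).add hl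
      (ih fun i hi => h i (Finset.mem_insert_of_mem hi))

theorem LDiv.pow (hl : l.Prime) {x : ℂ} (hx : LDiv l 0 x) (n : ℕ) : LDiv l 0 (x ^ n) := by
  induction n with
  | zero => simpa using LDiv.one hl
  | succ n ih => rw [pow_succ]; exact ih.mul_left hl hx

/-- Division by an integer prime to `l`. -/
theorem LDiv.div_int {s : ℕ} {x : ℂ} (hx : LDiv l s x) {c : ℤ} (hc : ¬ (l : ℤ) ∣ c)
    (hl : l.Prime) : LDiv l s (x / c) := by
  obtain ⟨a, b, hb, h1⟩ := hx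
  have hc0 : (c : ℂ) ≠ 0 := by
    intro h0
    have : c = 0 := by exact_mod_cast h0
    exact hc (this ▸ dvd_zero _)
  refine ⟨a, b * c, not_dvd_mul hl hb hc, ?_⟩
  push_cast
  field_simp
  linear_combination h1

/-- An integer lies in `l ^ s • ℤ_(l)` iff it is divisible by `l ^ s`. -/
theorem LDiv.intCast_iff (hl : l.Prime) {s : ℕ} (n : ℤ) :
    LDiv l s (n : ℂ) ↔ (l : ℤ) ^ s ∣ n := by
  constructor
  · rintro ⟨a, b, hb, h1⟩
    have h2 : n * b = (l : ℤ) ^ s * a := by exact_mod_cast h1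
    have hcop : IsCoprime ((l : ℤ) ^ s) b := by
      apply IsCoprime.pow_left
      exact ((Nat.prime_iff_prime_int.mp hl).coprime_iff_not_dvd).mpr hb
    exact hcop.dvd_of_dvd_mul_right (Dvd.intro _ h2.symm)
  · rintro ⟨a, rfl⟩
    have := LDiv.of_int hl s a
    simpa using this

theorem LDiv.natCast_iff (hl : l.Prime) {s : ℕ} (n : ℕ) :
    LDiv l s (n : ℂ) ↔ l ^ s ∣ n := by
  have := LDiv.intCast_iff hl (s := s) (n : ℤ)
  rw [Int.cast_natCast] at this
  rw [this]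
  exact_mod_cast Iff.rfl

/-- `NoConst` is monotone in the exponent. -/
theorem NoConst.mono {p s t : ℕ} (h : t ≤ s) (hN : NoConst p l t) : NoConst p l s :=
  fun G hG => hN G ⟨hG.1, fun k hk => (hG.2 k hk).mono h⟩

end Fermat.Agent.S16.NE
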