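import Mathlib
import Fermat.Agent.S16.ConjQ
import Fermat.Agent.S16.LevelOneSturm

/-!
# S16 (NE): two consequences of "trace to level one"

For `f ∈ M₂(Γ₀(p))` with `q`-expansion `∑ aₙ qⁿ`:

* `coeff_mul_sq` : `a_{p² m} = a_m`  (`U_p² = 1`; the trace of `f` is a level one form of
  weight `2`, hence `0`);
* `key_identity` : for `G, g ∈ M₂(Γ₀(p))` with `a₀(g) = 0`,
  `a_m(G g) = -p⁻¹ ∑_{a + b = p m} a_{pa}(G) a_{pb}(g)`
  (the trace of `G g` is a level one form of weight `4` with vanishing constant term, hence `0`).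
-/

set_option autoImplicit false

open UpperHalfPlane ModularForm Matrix.SpecialLinearGroup CongruenceSubgroup Filter
open scoped MatrixGroups Manifold ModularForm Topology

namespace Fermat.Agent.S16.NE

open Fermat.Agent.S16.ConjQ

/-- The cusp function of the zero function is analytic. -/
theorem cuspFunction_zero_fun (h : ℝ) : cuspFunction h (0 : ℍ → ℂ) = 0 := by
  simpa [cuspFunction, Function.Periodic.cuspFunction]
    using! (tendsto_const_nhds.mono_left nhdsWithin_le_nhds).limUnder_eq

/-- `q`-expansion of a finite sum of functions with analytic cusp functions. -/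
theorem qExpansion_finset_sum {ι : Type*} (s : Finset ι) (h : ℝ) (A : ι → ℍ → ℂ)
    (hA : ∀ i ∈ s, AnalyticAt ℂ (cuspFunction h (A i)) 0) :
    AnalyticAt ℂ (cuspFunction h (∑ i ∈ s, A i)) 0 ∧
      qExpansion h (∑ i ∈ s, A i) = ∑ i ∈ s, qExpansion h (A i) := by
  classical
  induction s using Finset.induction_on with
  | empty =>
    simp only [Finset.sum_empty]
    refine ⟨?_, qExpansion_zero h⟩
    rw [cuspFunction_zero_fun]
    exact analyticAt_const
  | insert a s ha ih =>
    have ih' := ih fun i hi => hA i (Finset.mem_insert_of_mem hi)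
    have haA := hA a (Finset.mem_insert_self a s)
    rw [Finset.sum_insert ha, Finset.sum_insert ha]
    refine ⟨?_, ?_⟩
    · rw [cuspFunction_add haA.continuousAt ih'.1.continuousAt]
      exact haA.add ih'.1
    · rw [qExpansion_add haA ih'.1, ih'.2]

variable {p : ℕ} [hp : Fact p.Prime]

/-- Sum of the powers of `ζ_p ^ n`. -/
theorem sum_zeta_pow (n : ℕ) :
    ∑ j : Fin p, zeta p ^ ((j : ℕ) * n) = if p ∣ n then (p : ℂ) else 0 := by
  have hp0 : p ≠ 0 := hp.out.ne_zero
  have hprim : IsPrimitiveRoot (zeta p) p := by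
    unfold zeta
    exact Complex.isPrimitiveRoot_exp p hp0
  have hsum : ∑ j : Fin p, zeta p ^ ((j : ℕ) * n) = ∑ j ∈ Finset.range p, (zeta p ^ n) ^ j := by
    rw [Finset.sum_range]
    refine Finset.sum_congr rfl fun j _ => ?_
    rw [← pow_mul, mul_comm]
  rw [hsum]
  split_ifs with hd
  · obtain ⟨k, rfl⟩ := hd
    have h1 : zeta p ^ (p * k) = 1 := by rw [pow_mul, hprim.pow_eq_one, one_pow]
    simp [h1]
  · have hcop : Nat.Coprime n p := (Nat.Coprime.symm ((Nat.Prime.coprime_iff_not_dvd hp.out).mpr hd))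
    exact (hprim.pow_of_coprime n hcop).geom_sum_eq_zero hp.out.one_lt

/-- **`U_p² = 1`** on `M₂(Γ₀(p))`: `a_{p² m} = a_m`. -/
theorem coeff_mul_sq (f : ModularForm (Gamma0 p) 2) (m : ℕ) :
    (qExpansion 1 f).coeff (m * p * p) = (qExpansion 1 f).coeff m := by
  have hp0 : p ≠ 0 := hp.out.ne_zero
  have hpc : (p : ℂ) ≠ 0 := by exact_mod_cast hp0
  have h0 := sum_cj_eq_zero (p := p) (inv_form f) f.holo' (bdd_cj_form f)
  have h1 := (qExpansion_finset_sum (Finset.univ : Finset (Option (Fin p))) (p : ℝ)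
    (fun i => cj p 2 f i) (fun i _ => analyticAt_cj f i)).2
  rw [h0, qExpansion_zero] at h1
  have h2 := congrArg (fun P : PowerSeries ℂ => P.coeff (p * m)) h1
  rw [Fintype.sum_option] at h2
  simp only [map_zero, map_add, map_sum] at h2
  rw [qExpansion_cj_none_coeff] at h2
  simp only [qExpansion_cj_some_coeff, dvd_mul_right, if_true,
    Nat.mul_div_cancel_left m hp.out.pos] at h2
  have h3 : ∑ j : Fin p, -((p : ℂ)⁻¹ * (qExpansion 1 f).coeff (p * m * p) *
      zeta p ^ ((j : ℕ) * (p * m))) = -(qExpansion 1 f).coeff (p * m * p) := by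
    rw [Finset.sum_neg_distrib, ← Finset.mul_sum, sum_zeta_pow, if_pos (dvd_mul_right p m)]
    field_simp
  rw [h3] at h2
  have h4 : m * p * p = p * m * p := by ring
  rw [h4]
  linear_combination h2

/-- **The weight four trace identity**: for `G, g ∈ M₂(Γ₀(p))` with `a₀(g) = 0`,
`a_m(G g) = -p⁻¹ ∑_{a + b = p m} a_{pa}(G) a_{pb}(g)`. -/
theorem key_identity (G g : ModularForm (Gamma0 p) 2) (hg : (qExpansion 1 g).coeff 0 = 0)
    (m : ℕ) :
    (qExpansion 1 G * qExpansion 1 g).coeff m =
      -((p : ℂ)⁻¹ * ∑ ab ∈ Finset.HasAntidiagonal.antidiagonal (p * m),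
          (qExpansion 1 G).coeff (ab.1 * p) * (qExpansion 1 g).coeff (ab.2 * p)) := by
  have hp0 : p ≠ 0 := hp.out.ne_zero
  have hpc : (p : ℂ) ≠ 0 := by exact_mod_cast hp0
  have hΓ := CongruenceSubgroup.one_mem_strictPeriods_Gamma0 p
  -- the product and its conjugates
  set F : ℍ → ℂ := ⇑G * ⇑g with hF
  have hFmul : (⇑(G.mul g) : ℍ → ℂ) = F := rfl
  have hcj : ∀ i, cj p (2 + 2) F i = cj p 2 G i * cj p 2 g i := fun i => by
    unfold cj
    exact ModularForm.mul_slash_SL2 2 2 _ _ _
  have hinv : ∀ γ ∈ Gamma0 p, F ∣[(2 + 2 : ℤ)] γ = F := fun γ hγ => by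
    rw [hF, ModularForm.mul_slash_SL2, inv_form G γ hγ, inv_form g γ hγ]
  have hb : ∀ i, IsBoundedAtImInfty (cj p (2 + 2) F i) := fun i => by
    rw [hcj]
    exact (bdd_cj_form G i).mul (bdd_cj_form g i)
  obtain ⟨c, hc⟩ := isLO_sum_cj (p := p) hinv (G.holo'.mul g.holo') hb
  -- `q_p`-expansion of the trace
  have hAn : ∀ i, AnalyticAt ℂ (cuspFunction (p : ℝ) (cj p (2 + 2) F i)) 0 := fun i => by
    rw [hcj, cuspFunction_mul (analyticAt_cj G i).continuousAt (analyticAt_cj g i).continuousAt]
    exact (analyticAt_cj G i).mul (analyticAt_cj g i)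
  have h1 := (qExpansion_finset_sum (Finset.univ : Finset (Option (Fin p))) (p : ℝ)
    (fun i => cj p (2 + 2) F i) (fun i _ => hAn i)).2
  rw [← hc] at h1
  -- coefficients
  have hcoeff : ∀ n : ℕ, (if p ∣ n then (qExpansion 1 c).coeff (n / p) else 0) =
      (if p ∣ n then (qExpansion 1 G * qExpansion 1 g).coeff (n / p) else 0) +
        (if p ∣ n then (p : ℂ)⁻¹ * ∑ ab ∈ Finset.HasAntidiagonal.antidiagonal n,
          (qExpansion 1 G).coeff (ab.1 * p) * (qExpansion 1 g).coeff (ab.2 * p) else 0) := by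
    intro n
    have hw := qExpansion_width_coeff (p := p) (F := ⇑c)
      (SlashInvariantFormClass.periodic_comp_ofComplex c one_mem_strictPeriods_SL) c.holo'
      (ModularFormClass.bdd_at_infty c) n
    rw [← hw, h1, Fintype.sum_option, map_add, map_sum]
    congr 1
    · have h2 := qExpansion_cj_none_coeff (p := p) (G.mul g) n
      rw [cj_none] at h2
      rw [cj_none, ← hFmul, h2, ModularForm.qExpansion_mul one_pos hΓ]
    · have h3 : ∀ j : Fin p, (qExpansion (p : ℝ) (cj p (2 + 2) F (some j))).coeff n =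
          (p : ℂ)⁻¹ ^ 2 * zeta p ^ ((j : ℕ) * n) * ∑ ab ∈ Finset.HasAntidiagonal.antidiagonal n,
            (qExpansion 1 G).coeff (ab.1 * p) * (qExpansion 1 g).coeff (ab.2 * p) := by
        intro j
        rw [hcj, qExpansion_mul (analyticAt_cj G (some j)) (analyticAt_cj g (some j)),
          PowerSeries.coeff_mul, Finset.mul_sum]
        refine Finset.sum_congr rfl fun ab hab => ?_
        rw [qExpansion_cj_some_coeff, qExpansion_cj_some_coeff]
        have hab' : ab.1 + ab.2 = n := Finset.HasAntidiagonal.mem_antidiagonal.mp hab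
        rw [← hab', mul_add, pow_add]
        ring
      simp only [h3]
      rw [← Finset.sum_mul, ← Finset.mul_sum, sum_zeta_pow]
      split_ifs with hd
      · field_simp
      · simp
  -- the level one form `c` has vanishing `q`-expansion
  have hc0 : (qExpansion 1 c).coeff 0 = 0 := by
    have h := hcoeff 0
    simp only [dvd_zero, if_true, Nat.zero_div, Finset.Nat.antidiagonal_zero, Finset.sum_singleton,
      zero_mul, PowerSeries.coeff_mul] at h
    rw [h, hg]
    ring
  have hcall : ∀ n : ℕ, (qExpansion 1 c).coeff n = 0 := by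
    have h := Fermat.Agent.S16.LevelOneSturm.coeff_mem_of_low (⊥ : AddSubgroup ℂ) c (fun n hn => by
      have hn0 : n = 0 := by
        by_contra hne
        have : (1 : ℤ) ≤ n := by exact_mod_cast Nat.one_le_iff_ne_zero.mpr hne
        omega
      rw [hn0, hc0]
      exact AddSubgroup.mem_bot.mpr rfl)
    exact fun n => AddSubgroup.mem_bot.mp (h n)
  have h := hcoeff (p * m)
  simp only [dvd_mul_right, if_true, Nat.mul_div_cancel_left m hp.out.pos] at h
  rw [hcall] at h
  linear_combination -h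

end Fermat.Agent.S16.NE
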