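import Mathlib
import Fermat.Agent.S16.NE.Defs
import Fermat.Agent.S16.NE.TraceFour
import Fermat.Agent.S23
import Fermat.Agent.S23.S22Alt

/-!
# S16 (NE), case (A): the key trick

If `S₂(Γ₀(p)) ≠ 0` and `G ∈ M₂(Γ₀(p))` has `q`-expansion in `1 + l ^ s q ℤ_(l)[[q]]`, then
`l ^ s ∣ p + 1` (in particular `l ≠ p` if `s ≥ 1`).

Proof: for every cusp form `g` with integral `q`-expansion, `Tr (G g)` is a level one cusp form of
weight `4`, hence zero; this gives `a_m(G g) = -p⁻¹ ∑_{a+b=pm} a_{pa}(G) a_{pb}(g)`, which reads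
`(p + 1) a_m(g) ≡ 0 mod l ^ s` because `a_{p² m}(g) = a_m(g)`.  If `l ^ s ∤ p + 1`, every integral
cusp form is divisible by `l`, hence (descent) zero; but `S₂(Γ₀(p))` has an integral structure
(`S23`).
-/

set_option autoImplicit false

open UpperHalfPlane ModularForm CongruenceSubgroup
open scoped MatrixGroups ModularForm

namespace Fermat.Agent.S16.NE

variable {l : ℕ}

/-- Splitting off the term `(0, n)` of a Cauchy product whose first factor has all higher
coefficients in `l ^ s • ℤ_(l)` and whose second factor is integral. -/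
theorem ldiv_antidiagonal_sub (hl : l.Prime) {s : ℕ} (a : ℕ → ℂ) (c : ℕ → ℤ)
    (ha : ∀ k : ℕ, k ≠ 0 → LDiv l s (a k)) (n : ℕ) :
    LDiv l s (∑ ab ∈ Finset.HasAntidiagonal.antidiagonal n, a ab.1 * (c ab.2 : ℂ) - a 0 * c n) := by
  classical
  have hmem : ((0, n) : ℕ × ℕ) ∈ Finset.HasAntidiagonal.antidiagonal n := by
    simp [Finset.HasAntidiagonal.mem_antidiagonal]
  rw [← Finset.add_sum_erase _ _ hmem]
  simp only [add_sub_cancel_left]
  refine LDiv.sum hl _ _ fun ab hab => ?_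
  have h1 := Finset.ne_of_mem_erase hab
  have h2 : ab.1 + ab.2 = n :=
    Finset.HasAntidiagonal.mem_antidiagonal.mp (Finset.mem_of_mem_erase hab)
  have h3 : ab.1 ≠ 0 := by
    intro h0
    apply h1
    ext
    · exact h0
    · simp only
      omega
  exact (ha _ h3).mul_right hl (LDiv.intCast hl _)

variable {p : ℕ} [hp : Fact p.Prime]

/-- A cusp form with integral `q`-expansion. -/
def IntCusp (g : CuspForm (Gamma0 p) 2) : Prop :=
  ∀ n : ℕ, ∃ c : ℤ, (qExpansion 1 g).coeff n = (c : ℂ)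

/-- The key congruence: `(p + 1) a_m(g) ≡ 0 mod l ^ s` for every integral cusp form `g`. -/
theorem dvd_succ_mul_coeff_of_isOneMod {s : ℕ} (hl : l.Prime) {G : ModularForm (Gamma0 p) 2}
    (hG : IsOneMod p l s G) {g : CuspForm (Gamma0 p) 2} (hg : IntCusp g) (m : ℕ) (c : ℤ)
    (hc : (qExpansion 1 g).coeff m = (c : ℂ)) : (l : ℤ) ^ s ∣ ((p : ℤ) + 1) * c := by
  have hp0 : p ≠ 0 := hp.out.ne_zero
  have hpc : (p : ℂ) ≠ 0 := by exact_mod_cast hp0
  have hΓ := CongruenceSubgroup.one_mem_strictPeriods_Gamma0 p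
  set g' : ModularForm (Gamma0 p) 2 := ModularFormClass.modularForm g with hg'
  have hcoe : (⇑g' : ℍ → ℂ) = ⇑g := rfl
  have hg0 : (qExpansion 1 g').coeff 0 = 0 := by
    rw [hcoe]
    exact CuspFormClass.qExpansion_coeff_zero g one_pos hΓ
  have key := key_identity G g' hg0 m
  have hT1 := coeff_mul_sq g' m
  rw [hcoe] at key hT1
  choose cf hcf using hg
  have hcm : cf m = c := by
    have : ((cf m : ℤ) : ℂ) = (c : ℂ) := by rw [← hcf m, hc]
    exact_mod_cast this
  -- left hand side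
  have hX := ldiv_antidiagonal_sub hl (fun k => (qExpansion 1 G).coeff k) cf hG.2 m
  -- right hand side
  have hY := ldiv_antidiagonal_sub hl (fun k => (qExpansion 1 G).coeff (k * p))
    (fun k => cf (k * p)) (fun k hk => hG.2 _ (Nat.mul_ne_zero hk hp0)) (p * m)
  simp only [zero_mul] at hY
  rw [hG.1] at hX hY
  rw [PowerSeries.coeff_mul] at key
  simp only [hcf] at key hT1
  have hT1' : cf (p * m * p) = cf m := by
    have h4 : m * p * p = p * m * p := by ring
    rw [h4] at hT1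
    exact_mod_cast hT1
  rw [hT1'] at hY
  set X : ℂ := ∑ ab ∈ Finset.HasAntidiagonal.antidiagonal m,
    (qExpansion 1 G).coeff ab.1 * (cf ab.2 : ℂ) - 1 * (cf m : ℂ) with hXdef
  set Y : ℂ := ∑ ab ∈ Finset.HasAntidiagonal.antidiagonal (p * m),
    (qExpansion 1 G).coeff (ab.1 * p) * (cf (ab.2 * p) : ℂ) - 1 * (cf m : ℂ) with hYdef
  have hmain : (((p : ℤ) + 1) * cf m : ℤ) = -((p : ℂ) * X + Y) := by
    push_cast
    rw [hXdef, hYdef]
    have key' := key
    field_simp at key'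
    linear_combination key'
  have hL : LDiv l s ((((p : ℤ) + 1) * cf m : ℤ) : ℂ) := by
    rw [hmain]
    exact (((LDiv.natCast hl p).mul_left hl hX).add hl hY).neg
  rw [← hcm]
  exact (LDiv.intCast_iff hl _).mp hL

/-- If `l ^ s ∤ p + 1`, every integral cusp form is divisible by `l`. -/
theorem dvd_coeff_of_not_dvd {s : ℕ} (hl : l.Prime) (h : ¬ l ^ s ∣ p + 1)
    {G : ModularForm (Gamma0 p) 2} (hG : IsOneMod p l s G) {g : CuspForm (Gamma0 p) 2}
    (hg : IntCusp g) (m : ℕ) (c : ℤ) (hc : (qExpansion 1 g).coeff m = (c : ℂ)) : (l : ℤ) ∣ c := by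
  by_contra hnd
  have h1 := dvd_succ_mul_coeff_of_isOneMod hl hG hg m c hc
  have hcop : IsCoprime ((l : ℤ) ^ s) c :=
    IsCoprime.pow_left (((Nat.prime_iff_prime_int.mp hl).coprime_iff_not_dvd).mpr hnd)
  have h2 : (l : ℤ) ^ s ∣ (p : ℤ) + 1 := hcop.dvd_of_dvd_mul_right h1
  exact h (by exact_mod_cast h2)

/-- Descent: if `l ^ s ∤ p + 1`, every integral cusp form is divisible by every power of `l`. -/
theorem pow_dvd_coeff {s : ℕ} (hl : l.Prime) (h : ¬ l ^ s ∣ p + 1)
    {G : ModularForm (Gamma0 p) 2} (hG : IsOneMod p l s G) (k : ℕ) :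
    ∀ g : CuspForm (Gamma0 p) 2, IntCusp g → ∀ (m : ℕ) (c : ℤ),
      (qExpansion 1 g).coeff m = (c : ℂ) → (l : ℤ) ^ k ∣ c := by
  have hΓ := CongruenceSubgroup.one_mem_strictPeriods_Gamma0 p
  have hlc : (l : ℂ) ≠ 0 := by exact_mod_cast hl.ne_zero
  induction k with
  | zero => intro g _ m c _; simp
  | succ k ih =>
    intro g hg m c hc
    -- divide `g` by `l`
    have hq : qExpansion 1 (((l : ℂ)⁻¹) • g : CuspForm (Gamma0 p) 2) =
        ((l : ℂ)⁻¹) • qExpansion 1 g := by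
      have := ModularForm.qExpansion_smul one_pos hΓ ((l : ℂ)⁻¹) g
      exact this
    have hg2 : IntCusp (((l : ℂ)⁻¹) • g : CuspForm (Gamma0 p) 2) := by
      intro n
      obtain ⟨cn, hcn⟩ := hg n
      obtain ⟨d, hd⟩ := dvd_coeff_of_not_dvd hl h hG hg n cn hcn
      refine ⟨d, ?_⟩
      rw [hq, PowerSeries.coeff_smul, hcn, hd, smul_eq_mul]
      push_cast
      field_simp
    obtain ⟨d, hd⟩ := dvd_coeff_of_not_dvd hl h hG hg m c hc
    have hcoef : (qExpansion 1 (((l : ℂ)⁻¹) • g : CuspForm (Gamma0 p) 2)).coeff m = (d : ℂ) := by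
      rw [hq, PowerSeries.coeff_smul, hc, hd, smul_eq_mul]
      push_cast
      field_simp
    have := ih _ hg2 m d hcoef
    rw [hd, pow_succ, mul_comm]
    exact mul_dvd_mul_left _ this

/-- A nonzero space of cusp forms contains a nonzero integral cusp form (`S23`). -/
theorem exists_intCusp_ne_zero (hS : ∃ g : CuspForm (Gamma0 p) 2, g ≠ 0) :
    ∃ g : CuspForm (Gamma0 p) 2, g ≠ 0 ∧ IntCusp g := by
  have : NeZero p := ⟨hp.out.ne_zero⟩
  obtain ⟨g0, hg0⟩ := hS
  have hI : CuspForm.HasIntegralStructure p 2 := Fermat.Agent.S23.result p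
  by_contra hall
  push Not at hall
  have hle : Submodule.span ℂ ((CuspForm.intLattice p 2 :
      Submodule ℤ (CuspForm (Gamma0 p) 2)) : Set (CuspForm (Gamma0 p) 2)) ≤ ⊥ := by
    refine Submodule.span_le.mpr fun x hx => ?_
    by_contra hx0
    exact hall x hx0 (fun n => Fermat.Agent.S23.S22Alt.qCoeff_mem_of_mem_intLattice p 2 hx n)
  unfold CuspForm.HasIntegralStructure at hI
  rw [hI] at hle
  exact hg0 ((Submodule.mem_bot ℂ).mp (hle Submodule.mem_top))

/-- **Case (A)**: if `S₂(Γ₀(p)) ≠ 0` and `l ^ s ∤ p + 1`, there is no `G ∈ M₂(Γ₀(p))` with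
`q`-expansion in `1 + l ^ s q ℤ_(l)[[q]]`. -/
theorem caseA (p : ℕ) [hp : Fact p.Prime] (hS : ∃ g : CuspForm (Gamma0 p) 2, g ≠ 0) {l s : ℕ}
    (hl : l.Prime) (h : ¬ l ^ s ∣ p + 1) : NoConst p l s := by
  intro G hG
  have hΓ := CongruenceSubgroup.one_mem_strictPeriods_Gamma0 p
  obtain ⟨g, hg0, hg⟩ := exists_intCusp_ne_zero hS
  -- all coefficients of `g` vanish
  have hzero : ∀ n : ℕ, (qExpansion 1 g).coeff n = 0 := by
    intro n
    obtain ⟨c, hc⟩ := hg n
    have hdvd := pow_dvd_coeff hl h hG (c.natAbs + 1) g hg n c hc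
    have hc0 : c = 0 := by
      by_contra hne
      have h1 : (l : ℤ) ^ (c.natAbs + 1) ≤ |c| := by
        have := Int.le_of_dvd (abs_pos.mpr hne) ((dvd_abs _ _).mpr hdvd)
        exact this
      have h2 : (c.natAbs + 1 : ℕ) < l ^ (c.natAbs + 1) := Nat.lt_pow_self hl.one_lt
      have h3 : |c| = (c.natAbs : ℤ) := Int.abs_eq_natAbs c
      have h4 : ((c.natAbs + 1 : ℕ) : ℤ) < (l : ℤ) ^ (c.natAbs + 1) := by exact_mod_cast h2
      rw [h3] at h1
      push_cast at h4
      omega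
    rw [hc, hc0, Int.cast_zero]
  apply hg0
  have hq : qExpansion 1 (ModularFormClass.modularForm g : ModularForm (Gamma0 p) 2) = 0 := by
    ext n
    exact hzero n
  have h0 := (ModularForm.qExpansion_eq_zero_iff one_pos hΓ _).mp hq
  ext z
  exact DFunLike.congr_fun h0 z

/-- Case (A) for `l = p`. -/
theorem caseA_self (p : ℕ) [hp : Fact p.Prime] (hS : ∃ g : CuspForm (Gamma0 p) 2, g ≠ 0) :
    NoConst p p 1 := by
  refine caseA p hS hp.out ?_
  rw [pow_one]
  intro hd
  have : p ∣ 1 := (Nat.dvd_add_right (dvd_refl p)).mp hd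
  exact hp.out.one_lt.ne' (Nat.dvd_one.mp this)

end Fermat.Agent.S16.NE
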