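import Mathlib

/-!
# The ring of `ℓ`-integral algebraic numbers

`lInt ℓ` is the subring of `ℂ` of all `x` such that `m * x` is an algebraic integer for some
natural number `m` coprime to `ℓ`.  It contains `ℤ`, `1 / m` for `m` coprime to `ℓ`, all algebraic
integers (e.g. roots of unity), and `ℓ` is not a unit in it: an integer `a` lies in `ℓ ^ s • lInt ℓ`
only if `ℓ ^ s ∣ a`.

`lMul ℓ s` is the additive subgroup `ℓ ^ s • lInt ℓ` of `ℂ`.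
-/

set_option autoImplicit false

namespace Fermat.Agent.S16.NE

/-- The subring of `ℂ` of `ℓ`-integral algebraic numbers. -/
def lInt (ℓ : ℕ) : Subring ℂ where
  carrier := {x | ∃ m : ℕ, m.Coprime ℓ ∧ IsIntegral ℤ ((m : ℂ) * x)}
  mul_mem' := by
    rintro x y ⟨m, hm, hx⟩ ⟨n, hn, hy⟩
    refine ⟨m * n, Nat.Coprime.mul_left hm hn, ?_⟩
    have : ((m * n : ℕ) : ℂ) * (x * y) = ((m : ℂ) * x) * ((n : ℂ) * y) := by push_cast; ring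
    rw [this]
    exact hx.mul hy
  one_mem' := ⟨1, Nat.coprime_one_left ℓ, by simpa using isIntegral_one⟩
  add_mem' := by
    rintro x y ⟨m, hm, hx⟩ ⟨n, hn, hy⟩
    refine ⟨m * n, Nat.Coprime.mul_left hm hn, ?_⟩
    have : ((m * n : ℕ) : ℂ) * (x + y) = (n : ℂ) * ((m : ℂ) * x) + (m : ℂ) * ((n : ℂ) * y) := by
      push_cast; ring
    rw [this]
    have hnat : ∀ k : ℕ, IsIntegral ℤ (k : ℂ) := fun k => by
      simpa using (isIntegral_algebraMap (R := ℤ) (A := ℂ) (x := (k : ℤ)))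
    exact ((hnat n).mul hx).add ((hnat m).mul hy)
  zero_mem' := ⟨1, Nat.coprime_one_left ℓ, by simpa using isIntegral_zero⟩
  neg_mem' := by
    rintro x ⟨m, hm, hx⟩
    refine ⟨m, hm, ?_⟩
    rw [mul_neg]
    exact hx.neg

theorem mem_lInt_iff {ℓ : ℕ} {x : ℂ} :
    x ∈ lInt ℓ ↔ ∃ m : ℕ, m.Coprime ℓ ∧ IsIntegral ℤ ((m : ℂ) * x) := Iff.rfl

/-- Algebraic integers are `ℓ`-integral. -/
theorem mem_lInt_of_isIntegral (ℓ : ℕ) {x : ℂ} (hx : IsIntegral ℤ x) : x ∈ lInt ℓ :=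
  ⟨1, Nat.coprime_one_left ℓ, by simpa using hx⟩

/-- `1 / m` is `ℓ`-integral for `m` coprime to `ℓ`. -/
theorem inv_natCast_mem_lInt {ℓ m : ℕ} (hm : m.Coprime ℓ) : ((m : ℂ))⁻¹ ∈ lInt ℓ := by
  rcases Nat.eq_zero_or_pos m with rfl | hpos
  · simp
  · refine ⟨m, hm, ?_⟩
    rw [mul_inv_cancel₀ (by exact_mod_cast hpos.ne')]
    exact isIntegral_one

/-- Roots of unity are `ℓ`-integral. -/
theorem mem_lInt_of_pow_eq_one (ℓ : ℕ) {x : ℂ} {n : ℕ} (hn : 0 < n) (hx : x ^ n = 1) :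
    x ∈ lInt ℓ :=
  mem_lInt_of_isIntegral ℓ (IsIntegral.of_pow hn (by rw [hx]; exact isIntegral_one))

/-- **`ℓ` is not a unit of `lInt ℓ`**: if an integer `a` is `ℓ ^ s` times an `ℓ`-integral number,
then `ℓ ^ s ∣ a`. -/
theorem pow_dvd_of_eq_mul {ℓ : ℕ} (s : ℕ) {a : ℤ} {y : ℂ} (hy : y ∈ lInt ℓ)
    (h : (a : ℂ) = (ℓ : ℂ) ^ s * y) : ((ℓ : ℤ) ^ s) ∣ a := by
  obtain ⟨m, hm, hint⟩ := hy
  rcases Nat.eq_zero_or_pos ℓ with rfl | hℓ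
  · -- `ℓ = 0`: then `m = 1`
    rcases Nat.eq_zero_or_pos s with rfl | hs
    · simp
    · have : (a : ℂ) = 0 := by rw [h]; simp [hs.ne']
      have ha : a = 0 := by exact_mod_cast this
      rw [ha]; exact dvd_zero _
  have hℓ0 : ((ℓ : ℂ) ^ s) ≠ 0 := pow_ne_zero _ (by exact_mod_cast hℓ.ne')
  -- `m * a / ℓ ^ s` is a rational algebraic integer
  have hq : IsIntegral ℤ (((m * a : ℤ) : ℚ) / ((ℓ : ℚ) ^ s)) := by
    have hmap : (algebraMap ℚ ℂ) (((m * a : ℤ) : ℚ) / ((ℓ : ℚ) ^ s)) = (m : ℂ) * y := by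
      have hy' : y = (a : ℂ) / (ℓ : ℂ) ^ s := by rw [h]; field_simp
      rw [hy']
      simp only [eq_ratCast]
      push_cast
      field_simp
    have : IsIntegral ℤ ((algebraMap ℚ ℂ) (((m * a : ℤ) : ℚ) / ((ℓ : ℚ) ^ s))) := by
      rw [hmap]; exact hint
    exact (isIntegral_algebraMap_iff (algebraMap ℚ ℂ).injective).mp this
  obtain ⟨c, hc⟩ := IsIntegrallyClosed.isIntegral_iff.mp hq
  have hℓq : ((ℓ : ℚ) ^ s) ≠ 0 := pow_ne_zero _ (by exact_mod_cast hℓ.ne')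
  have hc' : ((m * a : ℤ) : ℚ) = (c : ℚ) * (ℓ : ℚ) ^ s := by
    have : (algebraMap ℤ ℚ) c = (c : ℚ) := rfl
    rw [this] at hc
    rw [hc]; field_simp
  have hc'' : (m : ℤ) * a = c * (ℓ : ℤ) ^ s := by exact_mod_cast hc'
  have hdvd : ((ℓ : ℤ) ^ s) ∣ (m : ℤ) * a := ⟨c, by rw [hc'']; ring⟩
  have hcop : IsCoprime ((ℓ : ℤ) ^ s) (m : ℤ) := by
    have : IsCoprime (ℓ : ℤ) (m : ℤ) := by
      exact_mod_cast (Nat.isCoprime_iff_coprime.mpr hm.symm)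
    exact this.pow_left
  exact hcop.dvd_of_dvd_mul_left hdvd

/-- The additive subgroup `ℓ ^ s • lInt ℓ` of `ℂ`. -/
def lMul (ℓ s : ℕ) : AddSubgroup ℂ where
  carrier := {x | ∃ y ∈ lInt ℓ, x = (ℓ : ℂ) ^ s * y}
  add_mem' := by
    rintro _ _ ⟨y, hy, rfl⟩ ⟨z, hz, rfl⟩
    exact ⟨y + z, (lInt ℓ).add_mem hy hz, by ring⟩
  zero_mem' := ⟨0, (lInt ℓ).zero_mem, by ring⟩
  neg_mem' := by
    rintro _ ⟨y, hy, rfl⟩
    exact ⟨-y, (lInt ℓ).neg_mem hy, by ring⟩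

theorem mem_lMul_iff {ℓ s : ℕ} {x : ℂ} :
    x ∈ lMul ℓ s ↔ ∃ y ∈ lInt ℓ, x = (ℓ : ℂ) ^ s * y := Iff.rfl

theorem lMul_le_lInt (ℓ s : ℕ) {x : ℂ} (hx : x ∈ lMul ℓ s) : x ∈ lInt ℓ := by
  obtain ⟨y, hy, rfl⟩ := hx
  exact (lInt ℓ).mul_mem ((lInt ℓ).pow_mem (natCast_mem _ ℓ) s) hy

theorem mul_mem_lMul {ℓ s : ℕ} {x y : ℂ} (hx : x ∈ lInt ℓ) (hy : y ∈ lMul ℓ s) :
    x * y ∈ lMul ℓ s := by
  obtain ⟨z, hz, rfl⟩ := hy
  exact ⟨x * z, (lInt ℓ).mul_mem hx hz, by ring⟩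

/-- An integer in `ℓ ^ s • lInt ℓ` is divisible by `ℓ ^ s`. -/
theorem pow_dvd_of_intCast_mem_lMul {ℓ s : ℕ} {a : ℤ} (h : (a : ℂ) ∈ lMul ℓ s) :
    ((ℓ : ℤ) ^ s) ∣ a := by
  obtain ⟨y, hy, h⟩ := h
  exact pow_dvd_of_eq_mul s hy h

theorem intCast_mem_lMul {ℓ s : ℕ} {a : ℤ} (h : ((ℓ : ℤ) ^ s) ∣ a) : (a : ℂ) ∈ lMul ℓ s := by
  obtain ⟨c, rfl⟩ := h
  exact ⟨c, intCast_mem _ c, by push_cast; ring⟩

end Fermat.Agent.S16.NE
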