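import Mathlib
import Fermat.Agent.S16.NE.LInt

/-!
# Power series over `ℂ` with `ℓ`-integral coefficients, and congruences modulo `ℓ ^ s`

* `IsLInt ℓ f`: all coefficients of `f : ℂ⟦X⟧` lie in `lInt ℓ`.
* `LCongr ℓ s f g`: all coefficients of `f - g` lie in `ℓ ^ s • lInt ℓ`.
* `Up p f`: the series `∑ a_{pn} Xⁿ`.
-/

set_option autoImplicit false

namespace Fermat.Agent.S16.NE

open PowerSeries

/-- All coefficients are `ℓ`-integral. -/
def IsLInt (ℓ : ℕ) (f : PowerSeries ℂ) : Prop := ∀ n, f.coeff n ∈ lInt ℓ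

/-- `f ≡ g` modulo `ℓ ^ s` (coefficientwise, in the ring of `ℓ`-integral algebraic numbers). -/
def LCongr (ℓ s : ℕ) (f g : PowerSeries ℂ) : Prop := ∀ n, (f - g).coeff n ∈ lMul ℓ s

/-- The operator `U_p` on power series: `∑ aₙ Xⁿ ↦ ∑ a_{pn} Xⁿ`. -/
noncomputable def Up (p : ℕ) (f : PowerSeries ℂ) : PowerSeries ℂ :=
  PowerSeries.mk fun n => f.coeff (p * n)

@[simp] theorem coeff_Up (p : ℕ) (f : PowerSeries ℂ) (n : ℕ) :
    (Up p f).coeff n = f.coeff (p * n) := by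
  simp [Up]

theorem Up_add (p : ℕ) (f g : PowerSeries ℂ) : Up p (f + g) = Up p f + Up p g := by
  ext n; simp

theorem Up_sub (p : ℕ) (f g : PowerSeries ℂ) : Up p (f - g) = Up p f - Up p g := by
  ext n; simp

theorem Up_smul (p : ℕ) (c : ℂ) (f : PowerSeries ℂ) : Up p (c • f) = c • Up p f := by
  ext n; simp

theorem Up_one (p : ℕ) (hp : 0 < p) : Up p 1 = 1 := by
  ext n
  simp only [coeff_Up, coeff_one]
  have : p * n = 0 ↔ n = 0 := by
    constructor
    · intro h; rcases Nat.mul_eq_zero.mp h with h | h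
      · omega
      · exact h
    · rintro rfl; simp
  simp [this]

namespace IsLInt

variable {ℓ : ℕ} {f g : PowerSeries ℂ}

theorem zero : IsLInt ℓ 0 := fun n => by simp

theorem one : IsLInt ℓ 1 := fun n => by
  rw [coeff_one]; split_ifs
  · exact (lInt ℓ).one_mem
  · exact (lInt ℓ).zero_mem

theorem add (hf : IsLInt ℓ f) (hg : IsLInt ℓ g) : IsLInt ℓ (f + g) := fun n => by
  rw [map_add]; exact (lInt ℓ).add_mem (hf n) (hg n)

theorem neg (hf : IsLInt ℓ f) : IsLInt ℓ (-f) := fun n => by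
  rw [map_neg]; exact (lInt ℓ).neg_mem (hf n)

theorem sub (hf : IsLInt ℓ f) (hg : IsLInt ℓ g) : IsLInt ℓ (f - g) := fun n => by
  rw [map_sub]; exact (lInt ℓ).sub_mem (hf n) (hg n)

theorem mul (hf : IsLInt ℓ f) (hg : IsLInt ℓ g) : IsLInt ℓ (f * g) := fun n => by
  rw [coeff_mul]
  exact (lInt ℓ).sum_mem fun ij _ => (lInt ℓ).mul_mem (hf _) (hg _)

theorem pow (hf : IsLInt ℓ f) (n : ℕ) : IsLInt ℓ (f ^ n) := by
  induction n with
  | zero => rw [pow_zero]; exact one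
  | succ n ih => rw [pow_succ]; exact ih.mul hf

theorem C {c : ℂ} (hc : c ∈ lInt ℓ) : IsLInt ℓ (PowerSeries.C c) := fun n => by
  rw [coeff_C]; split_ifs
  · exact hc
  · exact (lInt ℓ).zero_mem

theorem map_int (x : PowerSeries ℤ) : IsLInt ℓ (PowerSeries.map (Int.castRingHom ℂ) x) :=
  fun n => by rw [coeff_map, eq_intCast]; exact intCast_mem _ _

theorem natCast (m : ℕ) : IsLInt ℓ (m : PowerSeries ℂ) := by
  have : (m : PowerSeries ℂ) = PowerSeries.C (m : ℂ) := by simp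
  rw [this]; exact C (natCast_mem _ m)

theorem ofNat (m : ℕ) [m.AtLeastTwo] : IsLInt ℓ (OfNat.ofNat m : PowerSeries ℂ) := by
  have : (OfNat.ofNat m : PowerSeries ℂ) = ((m : ℕ) : PowerSeries ℂ) := Nat.cast_ofNat.symm
  rw [this]; exact natCast m

theorem expand (p : ℕ) (hp : p ≠ 0) (hf : IsLInt ℓ f) : IsLInt ℓ (PowerSeries.expand p hp f) :=
  fun n => by
    rw [coeff_expand]; split_ifs
    · exact hf _
    · exact (lInt ℓ).zero_mem

theorem rescale {a : ℂ} (ha : a ∈ lInt ℓ) (hf : IsLInt ℓ f) :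
    IsLInt ℓ (PowerSeries.rescale a f) := fun n => by
  rw [coeff_rescale]; exact (lInt ℓ).mul_mem ((lInt ℓ).pow_mem ha n) (hf n)

theorem Up (p : ℕ) (hf : IsLInt ℓ f) : IsLInt ℓ (Up p f) := fun n => by
  rw [coeff_Up]; exact hf _

theorem prod {ι : Type*} (s : Finset ι) {F : ι → PowerSeries ℂ} (h : ∀ i ∈ s, IsLInt ℓ (F i)) :
    IsLInt ℓ (∏ i ∈ s, F i) := by
  classical
  induction s using Finset.induction_on with
  | empty => simpa using one
  | insert a s ha ih =>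
    rw [Finset.prod_insert ha]
    exact (h a (Finset.mem_insert_self a s)).mul
      (ih fun i hi => h i (Finset.mem_insert_of_mem hi))

end IsLInt

namespace LCongr

variable {ℓ s : ℕ} {f g h f' g' : PowerSeries ℂ}

theorem refl (f : PowerSeries ℂ) : LCongr ℓ s f f := fun n => by
  rw [sub_self]; simp

theorem symm (h : LCongr ℓ s f g) : LCongr ℓ s g f := fun n => by
  have := (lMul ℓ s).neg_mem (h n)
  rwa [← map_neg, neg_sub] at this

theorem trans (h₁ : LCongr ℓ s f g) (h₂ : LCongr ℓ s g h) : LCongr ℓ s f h := fun n => by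
  have := (lMul ℓ s).add_mem (h₁ n) (h₂ n)
  rwa [← map_add, sub_add_sub_cancel] at this

theorem add (h₁ : LCongr ℓ s f g) (h₂ : LCongr ℓ s f' g') : LCongr ℓ s (f + f') (g + g') :=
  fun n => by
    have := (lMul ℓ s).add_mem (h₁ n) (h₂ n)
    rwa [← map_add, show f - g + (f' - g') = f + f' - (g + g') by ring] at this

theorem sub (h₁ : LCongr ℓ s f g) (h₂ : LCongr ℓ s f' g') : LCongr ℓ s (f - f') (g - g') :=
  fun n => by
    have := (lMul ℓ s).sub_mem (h₁ n) (h₂ n)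
    rwa [← map_sub, show f - g - (f' - g') = f - f' - (g - g') by ring] at this

/-- Multiplying a congruence by an `ℓ`-integral series. -/
theorem mul_left (hh : IsLInt ℓ h) (h₁ : LCongr ℓ s f g) : LCongr ℓ s (h * f) (h * g) :=
  fun n => by
    rw [← mul_sub, coeff_mul]
    exact (lMul ℓ s).sum_mem fun ij _ => mul_mem_lMul (hh _) (h₁ _)

theorem mul_right (hh : IsLInt ℓ h) (h₁ : LCongr ℓ s f g) : LCongr ℓ s (f * h) (g * h) := by
  rw [mul_comm f, mul_comm g]; exact h₁.mul_left hh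

theorem mul (hf : IsLInt ℓ f) (hg' : IsLInt ℓ g') (h₁ : LCongr ℓ s f g)
    (h₂ : LCongr ℓ s f' g') : LCongr ℓ s (f * f') (g * g') :=
  (h₂.mul_left hf).trans (h₁.mul_right hg')

/-- If `g` is `ℓ`-integral and `f ≡ g`, then `f` is `ℓ`-integral. -/
theorem isLInt (hg : IsLInt ℓ g) (h₁ : LCongr ℓ s f g) : IsLInt ℓ f := fun n => by
  have h2 := lMul_le_lInt ℓ s (h₁ n)
  have := (lInt ℓ).add_mem h2 (hg n)
  rwa [← map_add, sub_add_cancel] at this

theorem pow (hf : IsLInt ℓ f) (hg : IsLInt ℓ g) (h₁ : LCongr ℓ s f g) (n : ℕ) :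
    LCongr ℓ s (f ^ n) (g ^ n) := by
  induction n with
  | zero => simpa using refl (ℓ := ℓ) (s := s) 1
  | succ n ih => rw [pow_succ, pow_succ]; exact ih.mul (hf.pow n) hg h₁

theorem prod {ι : Type*} (t : Finset ι) {F F' : ι → PowerSeries ℂ}
    (hF : ∀ i ∈ t, IsLInt ℓ (F i)) (hF' : ∀ i ∈ t, IsLInt ℓ (F' i))
    (h : ∀ i ∈ t, LCongr ℓ s (F i) (F' i)) : LCongr ℓ s (∏ i ∈ t, F i) (∏ i ∈ t, F' i) := by
  classical
  induction t using Finset.induction_on with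
  | empty => simpa using refl (ℓ := ℓ) (s := s) 1
  | insert a t ha ih =>
    rw [Finset.prod_insert ha, Finset.prod_insert ha]
    exact LCongr.mul (hF a (Finset.mem_insert_self a t))
      (IsLInt.prod t fun i hi => hF' i (Finset.mem_insert_of_mem hi))
      (h a (Finset.mem_insert_self a t))
      (ih (fun i hi => hF i (Finset.mem_insert_of_mem hi))
        (fun i hi => hF' i (Finset.mem_insert_of_mem hi))
        (fun i hi => h i (Finset.mem_insert_of_mem hi)))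

theorem Up (p : ℕ) (h₁ : LCongr ℓ s f g) : LCongr ℓ s (Up p f) (Up p g) := fun n => by
  rw [← Up_sub, coeff_Up]; exact h₁ _

theorem expand (p : ℕ) (hp : p ≠ 0) (h₁ : LCongr ℓ s f g) :
    LCongr ℓ s (PowerSeries.expand p hp f) (PowerSeries.expand p hp g) := fun n => by
  rw [← map_sub, coeff_expand]; split_ifs
  · exact h₁ _
  · exact (lMul ℓ s).zero_mem

theorem rescale {a : ℂ} (ha : a ∈ lInt ℓ) (h₁ : LCongr ℓ s f g) :
    LCongr ℓ s (PowerSeries.rescale a f) (PowerSeries.rescale a g) := fun n => by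
  rw [← map_sub, coeff_rescale]
  exact mul_mem_lMul ((lInt ℓ).pow_mem ha n) (h₁ n)

/-- Weakening the modulus. -/
theorem mono {s' : ℕ} (hs : s' ≤ s) (h₁ : LCongr ℓ s f g) : LCongr ℓ s' f g := fun n => by
  obtain ⟨y, hy, hyeq⟩ := h₁ n
  refine ⟨(ℓ : ℂ) ^ (s - s') * y, (lInt ℓ).mul_mem ((lInt ℓ).pow_mem (natCast_mem _ ℓ) _) hy, ?_⟩
  rw [hyeq, ← mul_assoc, ← pow_add, Nat.add_sub_cancel' hs]

/-- `C (ℓ ^ s) * y ≡ 0` for `ℓ`-integral `y`. -/
theorem C_pow_mul {y : PowerSeries ℂ} (hy : IsLInt ℓ y) :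
    LCongr ℓ s (PowerSeries.C ((ℓ : ℂ) ^ s) * y) 0 := fun n => by
  rw [sub_zero, coeff_C_mul]
  exact ⟨_, hy n, rfl⟩

/-- Conversely, a series `≡ 0` modulo `ℓ ^ s` is `C (ℓ ^ s)` times an `ℓ`-integral series. -/
theorem exists_eq_C_mul (hℓ : ℓ ≠ 0) (h₁ : LCongr ℓ s f 0) :
    ∃ y : PowerSeries ℂ, IsLInt ℓ y ∧ f = PowerSeries.C ((ℓ : ℂ) ^ s) * y := by
  have hne : ((ℓ : ℂ) ^ s) ≠ 0 := pow_ne_zero _ (by exact_mod_cast hℓ)
  refine ⟨PowerSeries.C (((ℓ : ℂ) ^ s)⁻¹) * f, fun n => ?_, ?_⟩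
  · obtain ⟨y, hy, hyeq⟩ := h₁ n
    rw [sub_zero] at hyeq
    rw [coeff_C_mul, hyeq, inv_mul_cancel_left₀ hne]
    exact hy
  · rw [← mul_assoc, ← map_mul, mul_inv_cancel₀ hne, map_one, one_mul]

end LCongr

end Fermat.Agent.S16.NE
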