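import Mathlib
import Fermat.Agent.S16.NE.SeriesMod

/-!
# The analytic interface for the non-existence half (NE) of S16

For a prime `p` and `G ∈ M₂(Γ₀(p))` with `q`-expansion `𝔤`, the `p + 1` conjugates of `G` under
`SL₂(ℤ)` are `G` itself and `G ∣ S Tʲ` (`j < p`), and (because the trace of `G` to level one
vanishes) `(G ∣ S Tʲ)(p z)` has the ordinary `q`-expansion `-p⁻¹ ∑ a_{pn}(G) ζ^{jn} qⁿ`
(`conjSeries p j 𝔤`).  The three statements below are what the pure-algebra part of NE consumes: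

* `UpUp p`: `U_p² = 1` on `q`-expansions of cusp forms of weight 2 and level `p`;
* `TraceZero p`: the trace of `G * g` to level one vanishes (`g` cuspidal), on `q`-expansions;
* `NormQ p`: the norm of `Ψ(G, E₄, E₆)` (an isobaric polynomial of weight `w`) is a level-one form
  of weight `w (p + 1)` whose `q`-expansion, after `q ↦ q^p`, is the product of the expansions of
  the conjugates.
-/

set_option autoImplicit false

open UpperHalfPlane ModularForm EisensteinSeries CongruenceSubgroup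
open scoped MatrixGroups ModularForm

namespace Fermat.Agent.S16.NE

/-- The primitive `p`-th root of unity `exp (2 π i / p)`. -/
noncomputable def zetaP (p : ℕ) : ℂ := Complex.exp (2 * Real.pi * Complex.I / p)

theorem zetaP_pow (p : ℕ) [NeZero p] : zetaP p ^ p = 1 := by
  rw [zetaP, ← Complex.exp_nat_mul, mul_div_cancel₀ _ (by exact_mod_cast NeZero.ne p)]
  exact Complex.exp_two_pi_mul_I

/-- The `q`-expansion of `z ↦ (G ∣ S Tʲ)(p z)` for a weight-2 form `G` on `Γ₀(p)` with
`q`-expansion `f`: `-p⁻¹ ∑ a_{pn} ζ^{jn} qⁿ`. -/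
noncomputable def conjSeries (p j : ℕ) (f : PowerSeries ℂ) : PowerSeries ℂ :=
  PowerSeries.C (-(p : ℂ)⁻¹) * PowerSeries.rescale (zetaP p ^ j) (Up p f)

/-- `U_p² = 1` on the `q`-expansions of weight-2 cusp forms of level `p`. -/
def UpUp (p : ℕ) : Prop :=
  ∀ g : CuspForm (Gamma0 p) 2, Up p (Up p (qExpansion 1 g)) = qExpansion 1 g

/-- The trace to level one of `G * g` (`G ∈ M₂(Γ₀(p))`, `g ∈ S₂(Γ₀(p))`) vanishes:
`p G g + U_p (U_p G * U_p g) = 0` on `q`-expansions. -/
def TraceZero (p : ℕ) : Prop :=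
  ∀ (G : ModularForm (Gamma0 p) 2) (g : CuspForm (Gamma0 p) 2),
    (p : ℂ) • (qExpansion 1 G * qExpansion 1 g) +
      Up p (Up p (qExpansion 1 G) * Up p (qExpansion 1 g)) = 0

/-- The three evaluation points `(x, E₄(q^p), E₆(q^p))`. -/
noncomputable def evalPt (p : ℕ) [NeZero p] (x : PowerSeries ℂ) : Fin 3 → PowerSeries ℂ :=
  ![x, PowerSeries.expand p (NeZero.ne p) (qExpansion 1 E₄),
    PowerSeries.expand p (NeZero.ne p) (qExpansion 1 E₆)]

/-- The norm formula: for `Ψ` isobaric of weight `w` in `(X, Y₄, Y₆)` of weights `(2, 4, 6)`, the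
norm of `Ψ(G, E₄, E₆)` from `Γ₀(p)` to level one is a modular form `N` of weight `w (p + 1)` with
`N(q^p) = Ψ(𝔤(q^p), E₄(q^p), E₆(q^p)) * ∏_{j < p} Ψ(conjSeries j, E₄(q^p), E₆(q^p))`. -/
def NormQ (p : ℕ) [NeZero p] : Prop :=
  ∀ (G : ModularForm (Gamma0 p) 2) (Ψ : MvPolynomial (Fin 3) ℂ) (w : ℕ),
    Ψ.IsWeightedHomogeneous (![2, 4, 6] : Fin 3 → ℕ) w →
    ∃ N : ModularForm 𝒮ℒ ((w : ℤ) * (p + 1)),
      PowerSeries.expand p (NeZero.ne p) (qExpansion 1 N) =
        MvPolynomial.aeval (evalPt p (PowerSeries.expand p (NeZero.ne p) (qExpansion 1 G))) Ψ *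
          ∏ j ∈ Finset.range p, MvPolynomial.aeval (evalPt p (conjSeries p j (qExpansion 1 G))) Ψ

end Fermat.Agent.S16.NE
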