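import Mathlib
import Fermat.Agent.S16.NE.Interface
import Fermat.Agent.S16.LevelOneSturm

/-!
# The generic "norm" argument for (NE)

If `ℓ ^ s ∣ p + 1` and `G ≡ 1 mod ℓ ^ s`, then all `p + 1` conjugate series of `G` are
`≡ 1 mod ℓ ^ s`.  If moreover `Ψ` is an isobaric polynomial of weight `w < 12` such that
`Ψ(x, E₄(q^p), E₆(q^p)) ≡ r₀(q^p) mod ℓ` for every `x ≡ 1 mod ℓ ^ s`, where `r₀ = u q + ⋯` is an
integral series with `ℓ ∤ u`, then the norm of `Ψ(G, E₄, E₆)` is a level-one form of weight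
`w (p + 1)` which is `≡ u^(p+1) q^(p+1) + ⋯ mod ℓ`, contradicting the level-one Sturm bound.
-/

set_option autoImplicit false

open UpperHalfPlane ModularForm EisensteinSeries CongruenceSubgroup
open scoped MatrixGroups ModularForm

namespace Fermat.Agent.S16.NE

/-- Powers of an integral series without constant term. -/
theorem coeff_pow_of_coeff_zero (r : PowerSeries ℤ) (h0 : r.coeff 0 = 0) (n : ℕ) :
    (∀ m < n, (r ^ n).coeff m = 0) ∧ (r ^ n).coeff n = (r.coeff 1) ^ n := by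
  obtain ⟨t, rfl⟩ : PowerSeries.X ∣ r := PowerSeries.X_dvd_iff.mpr (by simpa using h0)
  have h1 : (PowerSeries.X * t).coeff 1 = t.coeff 0 := by
    simp
  rw [mul_pow]
  constructor
  · intro m hm
    rw [PowerSeries.coeff_X_pow_mul', if_neg (by omega)]
  · rw [PowerSeries.coeff_X_pow_mul', if_pos le_rfl, Nat.sub_self, h1,
      PowerSeries.coeff_zero_eq_constantCoeff, map_pow]

/-- If `ℓ ^ s ∣ p + 1` and `f ≡ 1 mod ℓ ^ s`, then every conjugate series is `≡ 1 mod ℓ ^ s`. -/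
theorem conjSeries_congr_one {p ℓ : ℕ} [NeZero p] (hcop : p.Coprime ℓ) (s : ℕ)
    (hs : ℓ ^ s ∣ p + 1) {f : PowerSeries ℂ} (hf : LCongr ℓ s f 1) (j : ℕ) :
    LCongr ℓ s (conjSeries p j f) 1 := by
  have hp0 : 0 < p := Nat.pos_of_ne_zero (NeZero.ne p)
  have hβ : (-(p : ℂ)⁻¹) ∈ lInt ℓ := (lInt ℓ).neg_mem (inv_natCast_mem_lInt hcop)
  have hζ : zetaP p ^ j ∈ lInt ℓ :=
    (lInt ℓ).pow_mem (mem_lInt_of_pow_eq_one ℓ hp0 (zetaP_pow p)) j
  have h1 : LCongr ℓ s (Up p f) 1 := by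
    have := hf.Up p
    rwa [Up_one p hp0] at this
  have h2 : LCongr ℓ s (PowerSeries.rescale (zetaP p ^ j) (Up p f)) 1 := by
    have := h1.rescale hζ
    rwa [map_one] at this
  have h3 : LCongr ℓ s (conjSeries p j f) (PowerSeries.C (-(p : ℂ)⁻¹) * 1) :=
    h2.mul_left (IsLInt.C hβ)
  refine h3.trans ?_
  intro n
  rw [mul_one, map_sub, PowerSeries.coeff_C, PowerSeries.coeff_one]
  split_ifs with hn
  · obtain ⟨k, hk⟩ := hs
    refine ⟨-((k : ℂ) * (p : ℂ)⁻¹),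
      (lInt ℓ).neg_mem ((lInt ℓ).mul_mem (natCast_mem _ k) (inv_natCast_mem_lInt hcop)), ?_⟩
    have hpc : (p : ℂ) ≠ 0 := by exact_mod_cast NeZero.ne p
    have hk' : ((p : ℂ) + 1) = (ℓ : ℂ) ^ s * k := by exact_mod_cast congrArg (Nat.cast : ℕ → ℂ) hk
    field_simp
    linear_combination -hk'
  · rw [sub_zero]; exact (lMul ℓ s).zero_mem

/-- **The generic norm argument.** -/
theorem norm_case {p ℓ : ℕ} [Fact p.Prime] [NeZero p] [Fact ℓ.Prime] (hℓp : ℓ ≠ p) (s : ℕ)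
    (hs : ℓ ^ s ∣ p + 1) (Ψ : MvPolynomial (Fin 3) ℂ) (w : ℕ) (hw : w < 12)
    (hΨ : Ψ.IsWeightedHomogeneous (![2, 4, 6] : Fin 3 → ℕ) w)
    (r₀ : PowerSeries ℤ) (hr0 : r₀.coeff 0 = 0) (hr1 : ¬ (ℓ : ℤ) ∣ r₀.coeff 1)
    (hcore : ∀ x : PowerSeries ℂ, LCongr ℓ s x 1 →
      LCongr ℓ 1 (MvPolynomial.aeval (evalPt p x) Ψ)
        (PowerSeries.expand p (NeZero.ne p) (PowerSeries.map (Int.castRingHom ℂ) r₀)))
    (hnorm : NormQ p) (G : ModularForm (Gamma0 p) 2) (hG : LCongr ℓ s (qExpansion 1 G) 1) :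
    False := by
  have hp : p.Prime := Fact.out
  have hℓ : ℓ.Prime := Fact.out
  have hcop : p.Coprime ℓ := (Nat.coprime_primes hp hℓ).mpr (Ne.symm hℓp)
  obtain ⟨N, hN⟩ := hnorm G Ψ w hΨ
  set g : PowerSeries ℂ :=
    PowerSeries.expand p (NeZero.ne p) (PowerSeries.map (Int.castRingHom ℂ) r₀) with hg
  have hgI : IsLInt ℓ g := (IsLInt.map_int r₀).expand p _
  have hx0 : LCongr ℓ s (PowerSeries.expand p (NeZero.ne p) (qExpansion 1 G)) 1 := by
    have := hG.expand p (NeZero.ne p)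
    rwa [map_one] at this
  have hf0 := hcore _ hx0
  have hfj : ∀ j ∈ Finset.range p,
      LCongr ℓ 1 (MvPolynomial.aeval (evalPt p (conjSeries p j (qExpansion 1 G))) Ψ) g :=
    fun j _ => hcore _ (conjSeries_congr_one hcop s hs hG j)
  have hprod : LCongr ℓ 1 (PowerSeries.expand p (NeZero.ne p) (qExpansion 1 N))
      (g * ∏ _j ∈ Finset.range p, g) := by
    rw [hN]
    exact LCongr.mul (hf0.isLInt hgI) (IsLInt.prod _ fun _ _ => hgI) hf0
      (LCongr.prod _ (fun j hj => (hfj j hj).isLInt hgI) (fun _ _ => hgI) hfj)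
  have hgpow : g * ∏ _j ∈ Finset.range p, g = PowerSeries.expand p (NeZero.ne p)
      (PowerSeries.map (Int.castRingHom ℂ) (r₀ ^ (p + 1))) := by
    rw [Finset.prod_const, Finset.card_range, ← pow_succ', hg, map_pow, map_pow]
  rw [hgpow] at hprod
  obtain ⟨hlow, htop⟩ := coeff_pow_of_coeff_zero r₀ hr0 (p + 1)
  have key : ∀ m : ℕ,
      (qExpansion 1 N).coeff m - (((r₀ ^ (p + 1)).coeff m : ℤ) : ℂ) ∈ lMul ℓ 1 := by
    intro m
    have := hprod (p * m)
    rwa [map_sub, PowerSeries.coeff_expand_mul, PowerSeries.coeff_expand_mul,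
      PowerSeries.coeff_map, eq_intCast] at this
  refine LevelOneSturm.false_of_order_gt (lMul ℓ 1) N (p + 1) ?_ ?_ ?_
  · have : (w : ℤ) < 12 := by exact_mod_cast hw
    push_cast
    nlinarith
  · intro n hn
    have := key n
    rwa [hlow n hn, Int.cast_zero, sub_zero] at this
  · intro hmem
    have h1 := key (p + 1)
    rw [htop] at h1
    have h2 : (((r₀.coeff 1) ^ (p + 1) : ℤ) : ℂ) ∈ lMul ℓ 1 := by
      have := (lMul ℓ 1).sub_mem hmem h1
      simpa using this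
    have h3 := pow_dvd_of_intCast_mem_lMul h2
    rw [pow_one] at h3
    exact hr1 ((Nat.prime_iff_prime_int.mp hℓ).dvd_of_dvd_pow h3)

end Fermat.Agent.S16.NE
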