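import Mathlib
import Fermat.Agent.S16.NE.NormCase

/-!
# The four isobaric polynomials used in the norm argument, and their congruences

* `Psi4 = X² - Y₄` (weight 4): for `x ≡ 1 mod ℓ`, `Ψ ≡ -240 ∑ σ₃(n) q^{pn}`;
* `Psi6 = X³ - Y₆` (weight 6): for `x ≡ 1 mod ℓ`, `Ψ ≡ 504 ∑ σ₅(n) q^{pn}`;
* `Psi6' = (X³ - Y₆) / 9` (weight 6): for `x ≡ 1 mod 9`, `Ψ ≡ 56 ∑ σ₅(n) q^{pn} mod 3`;
* `Psi8 = (X⁴ - 6 X² Y₄ + 8 X Y₆ - 3 Y₄²) / 256` (weight 8): for `x ≡ 1 mod 8`,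
  `Ψ ≡ -27 ∑ σ₅ q^{pn} - 675 (∑ σ₃ q^{pn})² mod 2`.
-/

set_option autoImplicit false

open UpperHalfPlane ModularForm EisensteinSeries CongruenceSubgroup
open scoped MatrixGroups ModularForm

namespace Fermat.Agent.S16.NE

open Fermat.Agent.S22.DeltaInt

/-- A congruence from an explicit difference. -/
theorem LCongr.of_sub_eq {ℓ s : ℕ} {f g R : PowerSeries ℂ}
    (h : f - g = PowerSeries.C ((ℓ : ℂ) ^ s) * R) (hR : IsLInt ℓ R) : LCongr ℓ s f g := fun n => by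
  rw [h, PowerSeries.coeff_C_mul]
  exact ⟨_, hR n, rfl⟩

/-- `x ≡ 1 mod ℓ ^ s` means `x = 1 + ℓ ^ s y` with `y` integral. -/
theorem exists_eq_one_add {ℓ s : ℕ} (hℓ : ℓ ≠ 0) {x : PowerSeries ℂ} (hx : LCongr ℓ s x 1) :
    ∃ y : PowerSeries ℂ, IsLInt ℓ y ∧ x = 1 + PowerSeries.C ((ℓ : ℂ) ^ s) * y := by
  have h0 : LCongr ℓ s (x - 1) 0 := fun n => by rw [sub_zero]; exact hx n
  obtain ⟨y, hy, hxy⟩ := h0.exists_eq_C_mul hℓ
  exact ⟨y, hy, by rw [← hxy]; ring⟩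

section expansions

variable (p : ℕ) [NeZero p]

/-- `∑ σ₃(n) q^{pn}`. -/
noncomputable def S3p : PowerSeries ℂ :=
  PowerSeries.expand p (NeZero.ne p) (PowerSeries.map (Int.castRingHom ℂ) sA)

/-- `∑ σ₅(n) q^{pn}`. -/
noncomputable def S5p : PowerSeries ℂ :=
  PowerSeries.expand p (NeZero.ne p) (PowerSeries.map (Int.castRingHom ℂ) sB)

theorem isLInt_S3p (ℓ : ℕ) : IsLInt ℓ (S3p p) := (IsLInt.map_int sA).expand p _

theorem isLInt_S5p (ℓ : ℕ) : IsLInt ℓ (S5p p) := (IsLInt.map_int sB).expand p _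

theorem expand_E4 : PowerSeries.expand p (NeZero.ne p) (qExpansion 1 E₄) = 1 + 240 * S3p p := by
  rw [qExpansion_E4, S3p]
  simp only [map_add, map_mul, map_one, map_ofNat]

theorem expand_E6 : PowerSeries.expand p (NeZero.ne p) (qExpansion 1 E₆) = 1 - 504 * S5p p := by
  rw [qExpansion_E6, S5p]
  simp only [map_sub, map_mul, map_one, map_ofNat]

end expansions

/-! ### The polynomials -/

/-- `X² - Y₄`. -/
noncomputable def Psi4 : MvPolynomial (Fin 3) ℂ := MvPolynomial.X 0 ^ 2 - MvPolynomial.X 1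

/-- `X³ - Y₆`. -/
noncomputable def Psi6 : MvPolynomial (Fin 3) ℂ := MvPolynomial.X 0 ^ 3 - MvPolynomial.X 2

/-- `(X³ - Y₆) / 9`. -/
noncomputable def Psi6' : MvPolynomial (Fin 3) ℂ :=
  MvPolynomial.C (1 / 9 : ℂ) * (MvPolynomial.X 0 ^ 3 - MvPolynomial.X 2)

/-- `(X⁴ - 6 X² Y₄ + 8 X Y₆ - 3 Y₄²) / 256`. -/
noncomputable def Psi8 : MvPolynomial (Fin 3) ℂ :=
  MvPolynomial.C (1 / 256 : ℂ) *
    (MvPolynomial.X 0 ^ 4 - MvPolynomial.C 6 * MvPolynomial.X 0 ^ 2 * MvPolynomial.X 1 +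
      MvPolynomial.C 8 * MvPolynomial.X 0 * MvPolynomial.X 2 -
      MvPolynomial.C 3 * MvPolynomial.X 1 ^ 2)

/-- The weights `(2, 4, 6)`. -/
abbrev wts : Fin 3 → ℕ := ![2, 4, 6]

theorem hX0 : (MvPolynomial.X 0 : MvPolynomial (Fin 3) ℂ).IsWeightedHomogeneous wts 2 :=
  MvPolynomial.isWeightedHomogeneous_X ℂ wts 0

theorem hX1 : (MvPolynomial.X 1 : MvPolynomial (Fin 3) ℂ).IsWeightedHomogeneous wts 4 :=
  MvPolynomial.isWeightedHomogeneous_X ℂ wts 1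

theorem hX2 : (MvPolynomial.X 2 : MvPolynomial (Fin 3) ℂ).IsWeightedHomogeneous wts 6 :=
  MvPolynomial.isWeightedHomogeneous_X ℂ wts 2

theorem Psi4_homog : Psi4.IsWeightedHomogeneous wts 4 :=
  (hX0.pow 2).sub hX1

theorem Psi6_homog : Psi6.IsWeightedHomogeneous wts 6 :=
  (hX0.pow 3).sub hX2

theorem Psi6'_homog : Psi6'.IsWeightedHomogeneous wts 6 :=
  ((hX0.pow 3).sub hX2).C_mul _

theorem Psi8_homog : Psi8.IsWeightedHomogeneous wts 8 := by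
  have h1 : (MvPolynomial.X 0 ^ 4 : MvPolynomial (Fin 3) ℂ).IsWeightedHomogeneous wts 8 :=
    hX0.pow 4
  have h2 : (MvPolynomial.C 6 * MvPolynomial.X 0 ^ 2 * MvPolynomial.X 1 :
      MvPolynomial (Fin 3) ℂ).IsWeightedHomogeneous wts 8 := ((hX0.pow 2).C_mul 6).mul hX1
  have h3 : (MvPolynomial.C 8 * MvPolynomial.X 0 * MvPolynomial.X 2 :
      MvPolynomial (Fin 3) ℂ).IsWeightedHomogeneous wts 8 := (hX0.C_mul 8).mul hX2
  have h4 : (MvPolynomial.C 3 * MvPolynomial.X 1 ^ 2 :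
      MvPolynomial (Fin 3) ℂ).IsWeightedHomogeneous wts 8 := (hX1.pow 2).C_mul 3
  exact (((h1.sub h2).add h3).sub h4).C_mul _

/-! ### Evaluation -/

section eval

variable (p : ℕ) [NeZero p] (x : PowerSeries ℂ)

theorem aeval_Psi4 : MvPolynomial.aeval (evalPt p x) Psi4 = x ^ 2 - (1 + 240 * S3p p) := by
  simp [Psi4, evalPt, expand_E4]

theorem aeval_Psi6 : MvPolynomial.aeval (evalPt p x) Psi6 = x ^ 3 - (1 - 504 * S5p p) := by
  simp [Psi6, evalPt, expand_E6]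

theorem aeval_Psi6' : MvPolynomial.aeval (evalPt p x) Psi6' =
    PowerSeries.C (1 / 9 : ℂ) * (x ^ 3 - (1 - 504 * S5p p)) := by
  simp [Psi6', evalPt, expand_E6]

theorem aeval_Psi8 : MvPolynomial.aeval (evalPt p x) Psi8 =
    PowerSeries.C (1 / 256 : ℂ) * (x ^ 4 - 6 * x ^ 2 * (1 + 240 * S3p p) +
      8 * x * (1 - 504 * S5p p) - 3 * (1 + 240 * S3p p) ^ 2) := by
  simp [Psi8, evalPt, expand_E4, expand_E6]
  have h6 : (PowerSeries.C (6 : ℂ)) = 6 := map_ofNat _ 6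
  have h8 : (PowerSeries.C (8 : ℂ)) = 8 := map_ofNat _ 8
  have h3 : (PowerSeries.C (3 : ℂ)) = 3 := map_ofNat _ 3
  rw [h6, h8, h3]

end eval

/-! ### Integral series -/

theorem sA_coeff_zero : sA.coeff 0 = 0 := by simp [sA]

theorem sA_coeff_one : sA.coeff 1 = 1 := by simp [sA]

theorem sB_coeff_zero : sB.coeff 0 = 0 := by simp [sB]

theorem sB_coeff_one : sB.coeff 1 = 1 := by simp [sB]

theorem eight_dvd_cube_sub (d : ℕ) : (8 : ℤ) ∣ (d : ℤ) ^ 3 - (d : ℤ) ^ 5 := by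
  have h : ∀ x : ZMod 8, x ^ 3 - x ^ 5 = 0 := by decide
  have h2 := h (d : ZMod 8)
  have h3 : (((d : ℤ) ^ 3 - (d : ℤ) ^ 5 : ℤ) : ZMod 8) = 0 := by
    push_cast
    exact h2
  exact (ZMod.intCast_zmod_eq_zero_iff_dvd _ 8).mp h3

theorem eight_dvd_sigma_sub (m : ℕ) :
    (8 : ℤ) ∣ ((ArithmeticFunction.sigma 3 m : ℕ) : ℤ) - ((ArithmeticFunction.sigma 5 m : ℕ) : ℤ) := by
  rw [ArithmeticFunction.sigma_apply, ArithmeticFunction.sigma_apply]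
  push_cast
  rw [← Finset.sum_sub_distrib]
  exact Finset.dvd_sum fun d _ => eight_dvd_cube_sub d

/-- `W = (A - B) / 8`, i.e. `∑ (σ₃(n) - σ₅(n)) / 8 qⁿ`. -/
noncomputable def sW : PowerSeries ℤ :=
  PowerSeries.mk fun m => if m = 0 then 0 else
    (((ArithmeticFunction.sigma 3 m : ℕ) : ℤ) - ((ArithmeticFunction.sigma 5 m : ℕ) : ℤ)) / 8

theorem sA_eq : sA = sB + 8 * sW := by
  ext m
  have h8 : (8 : PowerSeries ℤ) = PowerSeries.C (8 : ℤ) := by simp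
  rw [h8, map_add, PowerSeries.coeff_C_mul, sA, sB, sW, PowerSeries.coeff_mk, PowerSeries.coeff_mk,
    PowerSeries.coeff_mk]
  split_ifs with hm
  · simp
  · rw [Int.mul_ediv_cancel' (eight_dvd_sigma_sub m)]; ring

/-- The integral series `-240 A`. -/
noncomputable def r4 : PowerSeries ℤ := -240 * sA

/-- The integral series `504 B`. -/
noncomputable def r6 : PowerSeries ℤ := 504 * sB

/-- The integral series `56 B`. -/
noncomputable def r6' : PowerSeries ℤ := 56 * sB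

/-- The integral series `-27 B - 675 A²`. -/
noncomputable def r8 : PowerSeries ℤ := -27 * sB - 675 * sA ^ 2

theorem r4_coeff_zero : r4.coeff 0 = 0 := by
  have : (-240 : PowerSeries ℤ) = PowerSeries.C (-240 : ℤ) := by simp
  rw [r4, this, PowerSeries.coeff_C_mul, sA_coeff_zero, mul_zero]

theorem r4_coeff_one : r4.coeff 1 = -240 := by
  have : (-240 : PowerSeries ℤ) = PowerSeries.C (-240 : ℤ) := by simp
  rw [r4, this, PowerSeries.coeff_C_mul, sA_coeff_one, mul_one]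

theorem r6_coeff_zero : r6.coeff 0 = 0 := by
  have : (504 : PowerSeries ℤ) = PowerSeries.C (504 : ℤ) := by simp
  rw [r6, this, PowerSeries.coeff_C_mul, sB_coeff_zero, mul_zero]

theorem r6_coeff_one : r6.coeff 1 = 504 := by
  have : (504 : PowerSeries ℤ) = PowerSeries.C (504 : ℤ) := by simp
  rw [r6, this, PowerSeries.coeff_C_mul, sB_coeff_one, mul_one]

theorem r6'_coeff_zero : r6'.coeff 0 = 0 := by
  have : (56 : PowerSeries ℤ) = PowerSeries.C (56 : ℤ) := by simp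
  rw [r6', this, PowerSeries.coeff_C_mul, sB_coeff_zero, mul_zero]

theorem r6'_coeff_one : r6'.coeff 1 = 56 := by
  have : (56 : PowerSeries ℤ) = PowerSeries.C (56 : ℤ) := by simp
  rw [r6', this, PowerSeries.coeff_C_mul, sB_coeff_one, mul_one]

theorem r8_coeff_zero : r8.coeff 0 = 0 := by
  have h1 : (-27 : PowerSeries ℤ) = PowerSeries.C (-27 : ℤ) := by simp
  have h2 : (675 : PowerSeries ℤ) = PowerSeries.C (675 : ℤ) := by simp
  rw [r8, h1, h2, map_sub, PowerSeries.coeff_C_mul, PowerSeries.coeff_C_mul, sB_coeff_zero]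
  have h3 : (sA ^ 2).coeff 0 = 0 :=
    (coeff_pow_of_coeff_zero sA sA_coeff_zero 2).1 0 (by norm_num)
  rw [h3]; norm_num

theorem r8_coeff_one : r8.coeff 1 = -27 := by
  have h1 : (-27 : PowerSeries ℤ) = PowerSeries.C (-27 : ℤ) := by simp
  have h2 : (675 : PowerSeries ℤ) = PowerSeries.C (675 : ℤ) := by simp
  rw [r8, h1, h2, map_sub, PowerSeries.coeff_C_mul, PowerSeries.coeff_C_mul, sB_coeff_one]
  have h3 : (sA ^ 2).coeff 1 = 0 :=
    (coeff_pow_of_coeff_zero sA sA_coeff_zero 2).1 1 (by norm_num)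
  rw [h3]; norm_num

/-! ### The congruences -/

section cores

variable (p : ℕ) [NeZero p]

theorem expand_r4 : PowerSeries.expand p (NeZero.ne p)
    (PowerSeries.map (Int.castRingHom ℂ) r4) = -240 * S3p p := by
  simp only [r4, S3p, map_mul, map_neg, map_ofNat]

theorem expand_r6 : PowerSeries.expand p (NeZero.ne p)
    (PowerSeries.map (Int.castRingHom ℂ) r6) = 504 * S5p p := by
  simp only [r6, S5p, map_mul, map_ofNat]

theorem expand_r6' : PowerSeries.expand p (NeZero.ne p)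
    (PowerSeries.map (Int.castRingHom ℂ) r6') = 56 * S5p p := by
  simp only [r6', S5p, map_mul, map_ofNat]

theorem expand_r8 : PowerSeries.expand p (NeZero.ne p)
    (PowerSeries.map (Int.castRingHom ℂ) r8) = -27 * S5p p - 675 * S3p p ^ 2 := by
  simp only [r8, S3p, S5p, map_mul, map_neg, map_ofNat, map_sub, map_pow]

/-- `∑ (σ₃(n) - σ₅(n)) / 8 q^{pn}`. -/
noncomputable def Wp : PowerSeries ℂ :=
  PowerSeries.expand p (NeZero.ne p) (PowerSeries.map (Int.castRingHom ℂ) sW)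

theorem isLInt_Wp (ℓ : ℕ) : IsLInt ℓ (Wp p) := (IsLInt.map_int sW).expand p _

theorem S3p_eq : S3p p = S5p p + 8 * Wp p := by
  simp only [S3p, S5p, Wp, sA_eq, map_add, map_mul, map_ofNat]

/-- `x ≡ 1 mod ℓ ⇒ x² - E₄(q^p) ≡ -240 ∑ σ₃(n) q^{pn} mod ℓ`. -/
theorem core4 {ℓ : ℕ} (hℓ : ℓ ≠ 0) (x : PowerSeries ℂ) (hx : LCongr ℓ 1 x 1) :
    LCongr ℓ 1 (MvPolynomial.aeval (evalPt p x) Psi4)
      (PowerSeries.expand p (NeZero.ne p) (PowerSeries.map (Int.castRingHom ℂ) r4)) := by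
  obtain ⟨y, hy, rfl⟩ := exists_eq_one_add hℓ hx
  rw [aeval_Psi4, expand_r4]
  set c := PowerSeries.C ((ℓ : ℂ) ^ 1) with hc
  have hcI : IsLInt ℓ c := IsLInt.C ((lInt ℓ).pow_mem (natCast_mem _ ℓ) 1)
  refine LCongr.of_sub_eq (R := 2 * y + c * y ^ 2) ?_ ?_
  · ring
  · exact ((IsLInt.ofNat 2).mul hy).add (hcI.mul (hy.pow 2))

/-- `x ≡ 1 mod ℓ ⇒ x³ - E₆(q^p) ≡ 504 ∑ σ₅(n) q^{pn} mod ℓ`. -/
theorem core6 {ℓ : ℕ} (hℓ : ℓ ≠ 0) (x : PowerSeries ℂ) (hx : LCongr ℓ 1 x 1) :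
    LCongr ℓ 1 (MvPolynomial.aeval (evalPt p x) Psi6)
      (PowerSeries.expand p (NeZero.ne p) (PowerSeries.map (Int.castRingHom ℂ) r6)) := by
  obtain ⟨y, hy, rfl⟩ := exists_eq_one_add hℓ hx
  rw [aeval_Psi6, expand_r6]
  set c := PowerSeries.C ((ℓ : ℂ) ^ 1) with hc
  have hcI : IsLInt ℓ c := IsLInt.C ((lInt ℓ).pow_mem (natCast_mem _ ℓ) 1)
  refine LCongr.of_sub_eq (R := 3 * y + 3 * c * y ^ 2 + c ^ 2 * y ^ 3) ?_ ?_
  · ring
  · exact (((IsLInt.ofNat 3).mul hy).add (((IsLInt.ofNat 3).mul hcI).mul (hy.pow 2))).add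
      ((hcI.pow 2).mul (hy.pow 3))

/-- `x ≡ 1 mod 9 ⇒ (x³ - E₆(q^p)) / 9 ≡ 56 ∑ σ₅(n) q^{pn} mod 3`. -/
theorem core6' (x : PowerSeries ℂ) (hx : LCongr 3 2 x 1) :
    LCongr 3 1 (MvPolynomial.aeval (evalPt p x) Psi6')
      (PowerSeries.expand p (NeZero.ne p) (PowerSeries.map (Int.castRingHom ℂ) r6')) := by
  obtain ⟨y, hy, rfl⟩ := exists_eq_one_add (by norm_num) hx
  rw [aeval_Psi6', expand_r6']
  have h9 : PowerSeries.C (((3 : ℕ) : ℂ) ^ 2) = 9 := by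
    rw [show (((3 : ℕ) : ℂ) ^ 2) = 9 by norm_num]; exact map_ofNat _ 9
  have h3 : PowerSeries.C (((3 : ℕ) : ℂ) ^ 1) = 3 := by
    rw [show (((3 : ℕ) : ℂ) ^ 1) = 3 by norm_num]; exact map_ofNat _ 3
  have hd : PowerSeries.C (1 / 9 : ℂ) * 9 = 1 := by
    rw [← map_ofNat (PowerSeries.C (R := ℂ)) 9, ← map_mul]; norm_num
  rw [h9]
  refine LCongr.of_sub_eq (R := y + 9 * y ^ 2 + 27 * y ^ 3) ?_ ?_
  · rw [h3]
    linear_combination (3 * y + 27 * y ^ 2 + 81 * y ^ 3 + 56 * S5p p) * hd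
  · exact (hy.add ((IsLInt.ofNat 9).mul (hy.pow 2))).add ((IsLInt.ofNat 27).mul (hy.pow 3))

/-- `x ≡ 1 mod 8 ⇒ Ψ₈(x, E₄(q^p), E₆(q^p)) ≡ -27 ∑ σ₅ q^{pn} - 675 (∑ σ₃ q^{pn})² mod 2`. -/
theorem core8 (x : PowerSeries ℂ) (hx : LCongr 2 3 x 1) :
    LCongr 2 1 (MvPolynomial.aeval (evalPt p x) Psi8)
      (PowerSeries.expand p (NeZero.ne p) (PowerSeries.map (Int.castRingHom ℂ) r8)) := by
  obtain ⟨y, hy, rfl⟩ := exists_eq_one_add (by norm_num) hx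
  rw [aeval_Psi8, expand_r8]
  have h8 : PowerSeries.C (((2 : ℕ) : ℂ) ^ 3) = 8 := by
    rw [show (((2 : ℕ) : ℂ) ^ 3) = 8 by norm_num]; exact map_ofNat _ 8
  have h2 : PowerSeries.C (((2 : ℕ) : ℂ) ^ 1) = 2 := by
    rw [show (((2 : ℕ) : ℂ) ^ 1) = 2 by norm_num]; exact map_ofNat _ 2
  have hd : PowerSeries.C (1 / 256 : ℂ) * 256 = 1 := by
    rw [← map_ofNat (PowerSeries.C (R := ℂ)) 256, ← map_mul]; norm_num
  rw [h8]
  have hS := S3p_eq p
  have hS5 := isLInt_S5p p 2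
  have hW := isLInt_Wp p 2
  have hS3 := isLInt_S3p p 2
  refine LCongr.of_sub_eq (R := 4 * y ^ 3 + 8 * y ^ 4 - 45 * Wp p - 45 * y * S3p p -
    63 * y * S5p p - 180 * y ^ 2 * S3p p) ?_ ?_
  · rw [h2, hS]
    linear_combination (-27 * S5p p - 675 * (S5p p + 8 * Wp p) ^ 2 +
      2 * (4 * y ^ 3 + 8 * y ^ 4 - 45 * Wp p - 45 * y * (S5p p + 8 * Wp p) -
        63 * y * S5p p - 180 * y ^ 2 * (S5p p + 8 * Wp p))) * hd
  · exact ((((((IsLInt.ofNat 4).mul (hy.pow 3)).add ((IsLInt.ofNat 8).mul (hy.pow 4))).sub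
      ((IsLInt.ofNat 45).mul hW)).sub (((IsLInt.ofNat 45).mul hy).mul hS3)).sub
      (((IsLInt.ofNat 63).mul hy).mul hS5)).sub (((IsLInt.ofNat 180).mul (hy.pow 2)).mul hS3)

end cores

end Fermat.Agent.S16.NE
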