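import Mathlib
import Fermat.Agent.S16.NE.Cores

/-!
# (NE): no weight-2 form on `Γ₀(p)` is congruent to `1` modulo too high a power of `ℓ`

Main result `NE_main`: let `p`, `ℓ` be primes, `G ∈ M₂(Γ₀(p))` with `q`-expansion
`≡ 1 mod ℓ ^ s` (coefficients in the ring `lInt ℓ` of `ℓ`-integral algebraic numbers), and assume
there is a cusp form `g ∈ S₂(Γ₀(p))` with `ℓ`-integral `q`-expansion and `a₁(g) ≡ 1 mod ℓ`.  Then
`ℓ ^ s ∣ 24 / gcd (p - 1, 12)`.

The analytic input is the interface `UpUp p`, `TraceZero p`, `NormQ p` of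
`Fermat.Agent.S16.NE.Interface` (hypotheses here).
-/

set_option autoImplicit false

open UpperHalfPlane ModularForm EisensteinSeries CongruenceSubgroup
open scoped MatrixGroups ModularForm

namespace Fermat.Agent.S16.NE

/-- **The trace argument**: `G ≡ 1 mod ℓ ^ s` forces `ℓ ^ s ∣ p + 1` (for every prime `ℓ`,
including `ℓ = p`, where it gives `s = 0`). -/
theorem trace_case {p ℓ : ℕ} [NeZero p] (s : ℕ)
    (hUU : UpUp p) (hTZ : TraceZero p)
    (G : ModularForm (Gamma0 p) 2) (hG : LCongr ℓ s (qExpansion 1 G) 1)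
    (g : CuspForm (Gamma0 p) 2) (hg : IsLInt ℓ (qExpansion 1 g))
    (hg1 : (qExpansion 1 g).coeff 1 - 1 ∈ lMul ℓ 1) : ℓ ^ s ∣ p + 1 := by
  have hp0 : 0 < p := Nat.pos_of_ne_zero (NeZero.ne p)
  set 𝔤 := qExpansion 1 G with h𝔤
  set 𝔥 := qExpansion 1 g with h𝔥
  have hT := hTZ G g
  rw [← h𝔤, ← h𝔥] at hT
  have h1 : LCongr ℓ s (𝔤 * 𝔥) (1 * 𝔥) := hG.mul_right hg
  have h2 : LCongr ℓ s (Up p 𝔤) 1 := by
    have := hG.Up p
    rwa [Up_one p hp0] at this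
  have h3 : LCongr ℓ s (Up p 𝔤 * Up p 𝔥) (1 * Up p 𝔥) := h2.mul_right (hg.Up p)
  have h4 : LCongr ℓ s (Up p (Up p 𝔤 * Up p 𝔥)) 𝔥 := by
    have := h3.Up p
    rwa [one_mul, hUU g] at this
  have h5 : LCongr ℓ s ((p : ℂ) • (𝔤 * 𝔥)) (PowerSeries.C (p : ℂ) * 𝔥) := by
    rw [PowerSeries.smul_eq_C_mul]
    have := h1.mul_left (IsLInt.C (natCast_mem (lInt ℓ) p))
    rwa [one_mul] at this
  have h6 := h5.add h4
  rw [hT] at h6
  -- coefficient of `q`
  have h7 := h6 1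
  rw [zero_sub, map_neg, map_add, PowerSeries.coeff_C_mul] at h7
  have h8 : ((p : ℂ) + 1) * 𝔥.coeff 1 ∈ lMul ℓ s := by
    have := (lMul ℓ s).neg_mem h7
    rw [neg_neg] at this
    convert this using 1
    ring
  obtain ⟨t, ht, hteq⟩ := hg1
  obtain ⟨z, hz, hzeq⟩ := h8
  rw [pow_one] at hteq
  have h𝔥1 : 𝔥.coeff 1 = 1 + (ℓ : ℂ) * t := by rw [← hteq]; ring
  rw [h𝔥1] at hzeq
  -- geometric series
  have hgeom := mul_neg_geom_sum (-((ℓ : ℂ) * t)) s
  set gs := ∑ i ∈ Finset.range s, (-((ℓ : ℂ) * t)) ^ i with hgs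
  have hgsmem : gs ∈ lInt ℓ :=
    (lInt ℓ).sum_mem fun i _ => (lInt ℓ).pow_mem
      ((lInt ℓ).neg_mem ((lInt ℓ).mul_mem (natCast_mem _ ℓ) ht)) i
  have hfin : (((p + 1 : ℕ) : ℤ) : ℂ) = (ℓ : ℂ) ^ s * (z * gs + ((p : ℂ) + 1) * (-t) ^ s) := by
    have hxs : (-((ℓ : ℂ) * t)) ^ s = (ℓ : ℂ) ^ s * (-t) ^ s := by
      rw [← mul_pow]; ring
    push_cast
    have e1 : ((p : ℂ) + 1) * (1 - (-((ℓ : ℂ) * t)) ^ s) = (ℓ : ℂ) ^ s * z * gs := by
      rw [← hgeom, ← hzeq]; ring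
    rw [hxs] at e1
    linear_combination e1
  have hmem : (z * gs + ((p : ℂ) + 1) * (-t) ^ s) ∈ lInt ℓ :=
    (lInt ℓ).add_mem ((lInt ℓ).mul_mem hz hgsmem)
      ((lInt ℓ).mul_mem ((lInt ℓ).add_mem (natCast_mem _ p) (lInt ℓ).one_mem)
        ((lInt ℓ).pow_mem ((lInt ℓ).neg_mem ht) s))
  have hdvd := pow_dvd_of_eq_mul s hmem hfin
  exact_mod_cast hdvd

theorem not_dvd_240 {ℓ : ℕ} (hℓ : ℓ.Prime) (h7 : 7 ≤ ℓ) : ¬ (ℓ : ℤ) ∣ (-240 : ℤ) := by
  intro h
  have h' : ℓ ∣ 240 := by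
    have : (ℓ : ℤ) ∣ (240 : ℤ) := by simpa using (dvd_neg.mpr h)
    exact_mod_cast this
  have e : (240 : ℕ) = 2 ^ 4 * 3 * 5 := by norm_num
  rw [e] at h'
  rcases (Nat.Prime.dvd_mul hℓ).mp h' with h1 | h1
  · rcases (Nat.Prime.dvd_mul hℓ).mp h1 with h2 | h2
    · have := Nat.le_of_dvd (by norm_num) (hℓ.dvd_of_dvd_pow h2); omega
    · have := Nat.le_of_dvd (by norm_num) h2; omega
  · have := Nat.le_of_dvd (by norm_num) h1; omega

/-- **(NE).**  See the module docstring. -/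
theorem NE_main {p ℓ : ℕ} [Fact p.Prime] [NeZero p] [Fact ℓ.Prime] (s : ℕ)
    (hUU : UpUp p) (hTZ : TraceZero p) (hnorm : NormQ p)
    (G : ModularForm (Gamma0 p) 2) (hG : LCongr ℓ s (qExpansion 1 G) 1)
    (g : CuspForm (Gamma0 p) 2) (hg : IsLInt ℓ (qExpansion 1 g))
    (hg1 : (qExpansion 1 g).coeff 1 - 1 ∈ lMul ℓ 1) :
    ℓ ^ s ∣ 24 / Nat.gcd (p - 1) 12 := by
  have hp : p.Prime := Fact.out
  have hℓ : ℓ.Prime := Fact.out
  have hdiv : ℓ ^ s ∣ p + 1 := trace_case s hUU hTZ G hG g hg hg1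
  -- `ℓ ≠ p` as soon as `s ≥ 1`
  have hℓp : 1 ≤ s → ℓ ≠ p := by
    rintro hs rfl
    have h1 : ℓ ∣ ℓ + 1 := dvd_trans (dvd_pow_self ℓ (by omega)) hdiv
    have h2 : ℓ ∣ 1 := (Nat.dvd_add_right (dvd_refl ℓ)).mp h1
    exact hℓ.one_lt.ne' (Nat.dvd_one.mp h2)
  have hsub : ∀ s' : ℕ, s' ≤ s → ℓ ^ s' ∣ p + 1 := fun s' hs' =>
    dvd_trans (pow_dvd_pow ℓ hs') hdiv
  -- arithmetic of `24 / gcd (p - 1, 12)`
  have hd12 : Nat.gcd (p - 1) 12 ∣ 12 := Nat.gcd_dvd_right _ _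
  have hdp : Nat.gcd (p - 1) 12 ∣ p - 1 := Nat.gcd_dvd_left _ _
  have hdle : Nat.gcd (p - 1) 12 ≤ 12 := Nat.le_of_dvd (by norm_num) hd12
  have hdpos : 0 < Nat.gcd (p - 1) 12 := Nat.pos_of_dvd_of_pos hd12 (by norm_num)
  have hp2 : 2 ≤ p := hp.two_le
  rcases lt_or_ge ℓ 5 with hlt | h5
  · -- `ℓ ∈ {2, 3}`
    have h23 : ℓ = 2 ∨ ℓ = 3 := by
      have := hℓ.two_le
      interval_cases ℓ
      · left; rfl
      · right; rfl
      · exact absurd hℓ (by norm_num)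
    rcases h23 with rfl | rfl
    · -- `ℓ = 2`
      have hs3 : s < 3 := by
        by_contra hcon
        replace hcon := not_lt.mp hcon
        exact norm_case (hℓp (by omega)) 3 (hsub 3 hcon) Psi8 8 (by norm_num) Psi8_homog r8
          r8_coeff_zero (by rw [r8_coeff_one]; decide) (core8 p) hnorm G (hG.mono hcon)
      generalize Nat.gcd (p - 1) 12 = d at *
      interval_cases s
      · simp
      · interval_cases d <;> simp_all
      · have h4 := hsub 2 le_rfl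
        interval_cases d <;> simp_all <;> omega
    · -- `ℓ = 3`
      have hs2 : s < 2 := by
        by_contra hcon
        replace hcon := not_lt.mp hcon
        exact norm_case (hℓp (by omega)) 2 (hsub 2 hcon) Psi6' 6 (by norm_num) Psi6'_homog r6'
          r6'_coeff_zero (by rw [r6'_coeff_one]; decide) (core6' p) hnorm G (hG.mono hcon)
      generalize Nat.gcd (p - 1) 12 = d at *
      interval_cases s
      · simp
      · have h3 := hsub 1 le_rfl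
        interval_cases d <;> simp_all <;> omega
  · -- `ℓ ≥ 5`: `s = 0`
    have hs0 : s = 0 := by
      by_contra hcon
      have hs1 : 1 ≤ s := Nat.one_le_iff_ne_zero.mpr hcon
      rcases eq_or_lt_of_le h5 with h5' | h5'
      · -- `ℓ = 5`
        subst h5'
        exact norm_case (hℓp hs1) 1 (hsub 1 hs1) Psi6 6 (by norm_num) Psi6_homog r6
          r6_coeff_zero (by rw [r6_coeff_one]; decide) (core6 p (by norm_num)) hnorm G
          (hG.mono hs1)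
      · -- `ℓ ≥ 7`
        have h7 : 7 ≤ ℓ := by
          rcases eq_or_lt_of_le (show 6 ≤ ℓ from h5') with h6 | h6
          · subst h6; exact absurd hℓ (by norm_num)
          · exact h6
        exact norm_case (hℓp hs1) 1 (hsub 1 hs1) Psi4 4 (by norm_num) Psi4_homog r4
          r4_coeff_zero (by rw [r4_coeff_one]; exact not_dvd_240 hℓ h7) (core4 p hℓ.ne_zero)
          hnorm G (hG.mono hs1)
    rw [hs0, pow_zero]
    exact one_dvd _

end Fermat.Agent.S16.NE
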