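import Mathlib
import Fermat.Agent.S16.NE.Generic
import Fermat.Agent.S16.NE.Defs
import Fermat.Agent.S16.TraceBridge

/-!
# (NE), cases B, C, D in the shape of `NE/Defs.lean`

* `caseB` : `ℓ ≥ 5` prime, `ℓ ∣ p + 1` ⟹ `NoConst p ℓ 1`;
* `noConst_three_two` : `9 ∣ p + 1` ⟹ `NoConst p 3 2`;
* `noConst_two_three` : `8 ∣ p + 1` ⟹ `NoConst p 2 3`.

All three are instances of the generic norm argument `norm_case` (with the polynomials of
`NE/Cores.lean`), fed with the norm formula `TraceQ.NORM`.  The interface Props of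
`NE/Interface.lean` are discharged here as well (`normQ_holds`, `upUp_holds`, `traceZero_holds`).
-/

set_option autoImplicit false

open UpperHalfPlane ModularForm EisensteinSeries CongruenceSubgroup
open scoped MatrixGroups ModularForm

namespace Fermat.Agent.S16.NE

/-! ### The interface holds -/

theorem normQ_holds (p : ℕ) [hp : Fact p.Prime] [NeZero p] : NormQ p := by
  intro G Ψ w hΨ
  obtain ⟨N, hN⟩ := TraceQ.NORM G w Ψ hΨ
  refine ⟨N, ?_⟩
  simp_rw [TraceQ.conjQ_eq_rescale] at hN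
  exact hN

theorem upUp_holds (p : ℕ) [hp : Fact p.Prime] : UpUp p :=
  fun g => TraceQ.T1 (g : ModularForm (Gamma0 p) 2)

theorem traceZero_holds (p : ℕ) [hp : Fact p.Prime] : TraceZero p :=
  fun G g => TraceBridge.traceZero G g

/-! ### From `LDiv` / `IsOneMod` to `lMul` / `LCongr` -/

theorem LDiv.mem_lMul {l s : ℕ} (hl : l.Prime) {x : ℂ} (h : LDiv l s x) : x ∈ lMul l s := by
  obtain ⟨a, b, hb, hx⟩ := h
  have hb0 : (b : ℂ) ≠ 0 := by
    intro h0
    apply hb
    have : b = 0 := by exact_mod_cast h0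
    rw [this]; exact dvd_zero _
  have hcop : (b.natAbs).Coprime l := by
    rw [Nat.coprime_comm]
    exact (Nat.Prime.coprime_iff_not_dvd hl).mpr fun hd => hb (Int.natCast_dvd.mpr hd)
  have h1 : ((b.natAbs : ℕ) : ℂ)⁻¹ ∈ lInt l := inv_natCast_mem_lInt hcop
  have hbinv : (b : ℂ)⁻¹ ∈ lInt l := by
    rcases Int.natAbs_eq b with hb' | hb'
    · have e : (b : ℂ) = ((b.natAbs : ℕ) : ℂ) := by
        have := congrArg (Int.cast : ℤ → ℂ) hb'
        rw [Int.cast_natCast] at this
        exact this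
      rw [e]; exact h1
    · have e : (b : ℂ) = -((b.natAbs : ℕ) : ℂ) := by
        have := congrArg (Int.cast : ℤ → ℂ) hb'
        rw [Int.cast_neg, Int.cast_natCast] at this
        exact this
      rw [e, inv_neg]; exact (lInt l).neg_mem h1
  refine ⟨(a : ℂ) * (b : ℂ)⁻¹, (lInt l).mul_mem (intCast_mem _ a) hbinv, ?_⟩
  field_simp
  linear_combination hx

theorem IsOneMod.lCongr {p l s : ℕ} (hl : l.Prime) {G : ModularForm (Gamma0 p) 2}
    (hG : IsOneMod p l s G) : LCongr l s (qExpansion 1 G) 1 := by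
  intro n
  rw [map_sub, PowerSeries.coeff_one]
  split_ifs with hn
  · rw [hn, hG.1, sub_self]; exact (lMul l s).zero_mem
  · rw [sub_zero]; exact (hG.2 n hn).mem_lMul hl

/-! ### The cases -/

/-- **Case B**: `ℓ ≥ 5`, `ℓ ∣ p + 1`: no `G ≡ 1 mod ℓ`. -/
theorem caseB (p : ℕ) [Fact p.Prime] {l : ℕ} (hl : l.Prime) (h5 : 5 ≤ l) (h : l ∣ p + 1) :
    NoConst p l 1 := by
  intro G hG
  have hp : p.Prime := Fact.out
  have : NeZero p := ⟨hp.ne_zero⟩
  have : Fact l.Prime := ⟨hl⟩
  have hlp : l ≠ p := by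
    rintro rfl
    have h2 : l ∣ 1 := (Nat.dvd_add_right (dvd_refl l)).mp h
    exact hl.one_lt.ne' (Nat.dvd_one.mp h2)
  have hcong := hG.lCongr hl
  have h1 : l ^ 1 ∣ p + 1 := by rwa [pow_one]
  rcases eq_or_lt_of_le h5 with h5' | h5'
  · subst h5'
    exact norm_case hlp 1 h1 Psi6 6 (by norm_num) Psi6_homog r6 r6_coeff_zero
      (by rw [r6_coeff_one]; decide) (core6 p (by norm_num)) (normQ_holds p) G hcong
  · have h7 : 7 ≤ l := by
      rcases eq_or_lt_of_le (show 6 ≤ l from h5') with h6 | h6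
      · subst h6; exact absurd hl (by norm_num)
      · exact h6
    exact norm_case hlp 1 h1 Psi4 4 (by norm_num) Psi4_homog r4 r4_coeff_zero
      (by rw [r4_coeff_one]; exact not_dvd_240 hl h7) (core4 p hl.ne_zero) (normQ_holds p) G hcong

/-- **Case C**: `9 ∣ p + 1`: no `G ≡ 1 mod 9`. -/
theorem noConst_three_two (p : ℕ) [Fact p.Prime] (h : 9 ∣ p + 1) : NoConst p 3 2 := by
  intro G hG
  have hp : p.Prime := Fact.out
  have : NeZero p := ⟨hp.ne_zero⟩
  have : Fact (Nat.Prime 3) := ⟨Nat.prime_three⟩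
  have hlp : 3 ≠ p := by
    rintro rfl
    omega
  have hcong := hG.lCongr Nat.prime_three
  exact norm_case hlp 2 (by norm_num; exact h) Psi6' 6 (by norm_num) Psi6'_homog r6'
    r6'_coeff_zero (by rw [r6'_coeff_one]; decide) (core6' p) (normQ_holds p) G hcong

/-- **Case D**: `8 ∣ p + 1`: no `G ≡ 1 mod 8`. -/
theorem noConst_two_three (p : ℕ) [Fact p.Prime] (h : 8 ∣ p + 1) : NoConst p 2 3 := by
  intro G hG
  have hp : p.Prime := Fact.out
  have : NeZero p := ⟨hp.ne_zero⟩
  have : Fact (Nat.Prime 2) := ⟨Nat.prime_two⟩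
  have hlp : 2 ≠ p := by
    rintro rfl
    omega
  have hcong := hG.lCongr Nat.prime_two
  exact norm_case hlp 3 (by norm_num; exact h) Psi8 8 (by norm_num) Psi8_homog r8
    r8_coeff_zero (by rw [r8_coeff_one]; decide) (core8 p) (normQ_holds p) G hcong

end Fermat.Agent.S16.NE
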