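import Mathlib
import Fermat.Agent.S16.NE.Defs
import Fermat.Agent.S16.NE.CaseA
import Fermat.Agent.S16.NE.CaseB
import Fermat.Agent.S16.NE.Arith

/-!
# S16, the non-existence half (NE): final assembly

* `noConst_all` : if `S₂(Γ₀(p)) ≠ 0`, then for every prime `l` the constant `1` is not a weight-two
  modular form on `Γ₀(p)` modulo `l ^ (v_l(24 / gcd(p - 1, 12)) + 1)`.
* `main` : every `G ∈ M₂(Γ₀(p))` with `q`-expansion `(p - 1) + 24 m ∑_{k ≥ 1} z_k q^k` (`z_k ∈ ℤ`)
  has `m ∣ eisensteinNumerator p` (if `S₂(Γ₀(p)) ≠ 0`).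

Inputs: case (A) (`caseA`, the trace argument), cases (B), (C), (D) (the norm argument:
`caseB`, `noConst_three_two`, `noConst_two_three`) and the arithmetic `main_of_noConst`.
-/

set_option autoImplicit false

open UpperHalfPlane CongruenceSubgroup
open scoped MatrixGroups ModularForm

namespace Fermat.Agent.S16.NE

/-- Raising the exponent to `v_l(N) + 1`. -/
theorem noConst_padic {p l N t : ℕ} (hl : l.Prime) (hN : N ≠ 0) (ht : 1 ≤ t)
    (hdiv : l ^ (t - 1) ∣ N) (h : NoConst p l t) : NoConst p l (padicValNat l N + 1) := by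
  have : Fact l.Prime := ⟨hl⟩
  have h1 : t - 1 ≤ padicValNat l N := (padicValNat_dvd_iff_le hN).mp hdiv
  exact h.mono (by omega)

/-- **(NE), all primes**: for every prime `l`, there is no `G ∈ M₂(Γ₀(p))` with `q`-expansion in
`1 + l ^ s q ℤ_(l)[[q]]`, `s = v_l(24 / gcd(p - 1, 12)) + 1`. -/
theorem noConst_all (p : ℕ) [hp : Fact p.Prime] (hS : ∃ g : CuspForm (Gamma0 p) 2, g ≠ 0) :
    ∀ l : ℕ, l.Prime → NoConst p l (padicValNat l (24 / Nat.gcd (p - 1) 12) + 1) := by
  intro l hl
  have hp2 : 2 ≤ p := hp.out.two_le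
  have hd12 : Nat.gcd (p - 1) 12 ∣ 12 := Nat.gcd_dvd_right _ _
  have hdp : Nat.gcd (p - 1) 12 ∣ p - 1 := Nat.gcd_dvd_left _ _
  have hdpos : 0 < Nat.gcd (p - 1) 12 := Nat.pos_of_dvd_of_pos hd12 (by norm_num)
  have hdle : Nat.gcd (p - 1) 12 ≤ 12 := Nat.le_of_dvd (by norm_num) hd12
  have hN : 24 / Nat.gcd (p - 1) 12 ≠ 0 := by
    have : Nat.gcd (p - 1) 12 ≤ 24 := by omega
    exact (Nat.div_pos this hdpos).ne'
  -- the exponent-one statement, valid for every prime `l ≥ 5` and whenever `l ∤ p + 1`
  rcases lt_or_ge l 5 with hlt | h5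
  · have h23 : l = 2 ∨ l = 3 := by
      have := hl.two_le
      interval_cases l
      · left; rfl
      · right; rfl
      · exact absurd hl (by norm_num)
    rcases h23 with rfl | rfl
    · -- `l = 2`
      rcases Nat.even_or_odd p with hev | hodd
      · -- `p = 2`
        have hp2' : p = 2 := (Nat.Prime.even_iff hp.out).mp hev
        refine noConst_padic hl hN le_rfl (by simp) (caseA p hS hl ?_)
        rw [hp2']; norm_num
      · obtain ⟨k, hk⟩ := hodd
        rcases Nat.even_or_odd k with hkev | hkodd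
        · -- `p ≡ 1 mod 4`: exponent 2
          obtain ⟨j, hj⟩ := hkev
          refine noConst_padic hl hN (t := 2) (by norm_num) ?_ (caseA p hS hl ?_)
          · -- `2 ∣ 24 / d`
            obtain ⟨e, he⟩ := hd12
            have h24 : 24 / Nat.gcd (p - 1) 12 = 2 * e := by
              rw [show 24 = Nat.gcd (p - 1) 12 * (2 * e) by linarith]
              exact Nat.mul_div_cancel_left _ hdpos
            rw [h24]; simp
          · intro hdvd
            have : (2 : ℕ) ^ 2 ∣ p + 1 := hdvd
            omega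
        · -- `p ≡ 3 mod 4`: exponent 3
          obtain ⟨j, hj⟩ := hkodd
          have h4 : ¬ 4 ∣ Nat.gcd (p - 1) 12 := fun h => by
            have := h.trans hdp
            omega
          have hdiv : 2 ^ (3 - 1) ∣ 24 / Nat.gcd (p - 1) 12 := by
            generalize Nat.gcd (p - 1) 12 = d at *
            interval_cases d <;> omega
          by_cases h8 : 8 ∣ p + 1
          · exact noConst_padic hl hN (t := 3) (by norm_num) hdiv (noConst_two_three p h8)
          · exact noConst_padic hl hN (t := 3) (by norm_num) hdiv (caseA p hS hl (by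
              norm_num; exact h8))
    · -- `l = 3`
      by_cases h3 : 3 ∣ p + 1
      · -- exponent 2
        have h3d : ¬ 3 ∣ Nat.gcd (p - 1) 12 := fun h => by
          have := h.trans hdp
          omega
        have hdiv : 3 ^ (2 - 1) ∣ 24 / Nat.gcd (p - 1) 12 := by
          generalize Nat.gcd (p - 1) 12 = d at *
          interval_cases d <;> omega
        by_cases h9 : 9 ∣ p + 1
        · exact noConst_padic hl hN (t := 2) (by norm_num) hdiv (noConst_three_two p h9)
        · exact noConst_padic hl hN (t := 2) (by norm_num) hdiv (caseA p hS hl (by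
            norm_num; exact h9))
      · exact noConst_padic hl hN le_rfl (by simp) (caseA p hS hl (by rwa [pow_one]))
  · -- `l ≥ 5`
    by_cases hdvd : l ∣ p + 1
    · exact noConst_padic hl hN le_rfl (by simp) (caseB p hl h5 hdvd)
    · exact noConst_padic hl hN le_rfl (by simp) (caseA p hS hl (by rwa [pow_one]))

/-- **(NE), final form** (the shape consumed by the duality/assembly file): if
`S₂(Γ₀(p)) ≠ 0` and `G ∈ M₂(Γ₀(p))` has `q`-expansion `(p - 1) + 24 m ∑_{k ≥ 1} z_k q^k` with
`z_k ∈ ℤ`, then `m ∣ eisensteinNumerator p`. -/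
theorem main (p : ℕ) [Fact p.Prime] (hS : ∃ g : CuspForm (Gamma0 p) 2, g ≠ 0) (m : ℕ)
    (G : ModularForm (Gamma0 p) 2) (h0 : (qExpansion 1 G).coeff 0 = (p : ℂ) - 1)
    (hn : ∀ k : ℕ, k ≠ 0 → ∃ z : ℤ, (qExpansion 1 G).coeff k = 24 * (m : ℂ) * z) :
    m ∣ ModularCurve.eisensteinNumerator p :=
  main_of_noConst p (noConst_all p hS) m G h0 hn

end Fermat.Agent.S16.NE
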