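import Fermat.Agent.S16.NE.Arith

/-!
# S16, non-existence half: from the four cases to `NoConst` at every prime

`noConst_all_of_cases`: the case statements (A) `l ^ s ∤ p + 1`, (B) `5 ≤ l ∣ p + 1`,
(C) `9 ∣ p + 1`, (D) `8 ∣ p + 1` give `NoConst p l (v_l(24 / gcd(p-1,12)) + 1)` for every prime
`l`; `main_of_cases` combines this with `main_of_noConst`.
-/

set_option autoImplicit false

open UpperHalfPlane CongruenceSubgroup
open scoped MatrixGroups ModularForm

namespace Fermat.Agent.S16.NE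

/-- `24 / gcd(p-1,12)` is not zero. -/
theorem twentyfour_div_gcd_ne_zero (p : ℕ) : 24 / Nat.gcd (p - 1) 12 ≠ 0 := by
  have h12 : Nat.gcd (p - 1) 12 ∣ 12 := Nat.gcd_dvd_right _ _
  have hle : Nat.gcd (p - 1) 12 ≤ 12 := Nat.le_of_dvd (by norm_num) h12
  have hpos : 0 < Nat.gcd (p - 1) 12 := Nat.gcd_pos_of_pos_right _ (by norm_num)
  exact (Nat.div_pos (by omega) hpos).ne'

theorem gcd_sub_one_twelve (p : ℕ) : Nat.gcd (p - 1) 12 = Nat.gcd ((p - 1) % 12) 12 := by
  rw [Nat.gcd_comm, Nat.gcd_rec]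

/-- `3 ∣ 24 / gcd(p-1,12)` when `p ≡ 2 mod 3`. -/
theorem three_dvd_of_mod {p : ℕ} (hp : 1 ≤ p) (h : p % 3 = 2) : 3 ∣ 24 / Nat.gcd (p - 1) 12 := by
  rw [gcd_sub_one_twelve]
  have hr : (p - 1) % 12 = 1 ∨ (p - 1) % 12 = 4 ∨ (p - 1) % 12 = 7 ∨ (p - 1) % 12 = 10 := by
    omega
  rcases hr with hr | hr | hr | hr <;> rw [hr] <;> decide

/-- `2 ∣ 24 / gcd(p-1,12)`. -/
theorem two_dvd_twentyfour_div (p : ℕ) : 2 ∣ 24 / Nat.gcd (p - 1) 12 := by
  rw [gcd_sub_one_twelve]
  have hr : (p - 1) % 12 < 12 := Nat.mod_lt _ (by norm_num)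
  interval_cases (p - 1) % 12 <;> decide

/-- `4 ∣ 24 / gcd(p-1,12)` when `p ≡ 3 mod 4`. -/
theorem four_dvd_of_mod {p : ℕ} (hp : 1 ≤ p) (h : p % 4 = 3) : 4 ∣ 24 / Nat.gcd (p - 1) 12 := by
  rw [gcd_sub_one_twelve]
  have hr : (p - 1) % 12 = 2 ∨ (p - 1) % 12 = 6 ∨ (p - 1) % 12 = 10 := by
    omega
  rcases hr with hr | hr | hr <;> rw [hr] <;> decide

/-- From the four case statements to `NoConst` at every prime, with the exponent
`v_l(24 / gcd(p-1,12)) + 1`. -/
theorem noConst_all_of_cases (p : ℕ) [Fact p.Prime]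
    (hA : ∀ {l s : ℕ}, l.Prime → ¬ l ^ s ∣ p + 1 → NoConst p l s)
    (hB : ∀ {l : ℕ}, l.Prime → 5 ≤ l → l ∣ p + 1 → NoConst p l 1)
    (hC : 9 ∣ p + 1 → NoConst p 3 2)
    (hD : 8 ∣ p + 1 → NoConst p 2 3) :
    ∀ l : ℕ, l.Prime → NoConst p l (padicValNat l (24 / Nat.gcd (p - 1) 12) + 1) := by
  have hp : p.Prime := Fact.out
  have hp2 : 2 ≤ p := hp.two_le
  have hself : NoConst p p 1 := by
    refine hA hp ?_
    rw [pow_one]
    intro hd
    have : p ∣ 1 := (Nat.dvd_add_right (dvd_refl p)).mp hd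
    exact hp.one_lt.ne' (Nat.dvd_one.mp this)
  have ht0 := twentyfour_div_gcd_ne_zero p
  intro l hl
  rcases lt_or_ge l 5 with hlt | h5
  · have h23 : l = 2 ∨ l = 3 := by
      have := hl.two_le
      interval_cases l
      · left; rfl
      · right; rfl
      · exact absurd hl (by norm_num)
    rcases h23 with rfl | rfl
    · -- `l = 2`
      by_cases hp2' : p = 2
      · subst hp2'
        exact NoConst.mono (by omega) hself
      · have hodd : p % 2 = 1 := by
          rcases hp.eq_two_or_odd with h | h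
          · exact absurd h hp2'
          · exact h
        have hmod : p % 4 = 1 ∨ p % 4 = 3 := by omega
        rcases hmod with h1 | h3
        · -- `s = 2`
          have hle : 1 ≤ padicValNat 2 (24 / Nat.gcd (p - 1) 12) :=
            (padicValNat_dvd_iff_le ht0).mp (by rw [pow_one]; exact two_dvd_twentyfour_div p)
          refine NoConst.mono (by omega : 2 ≤ _) (hA Nat.prime_two ?_)
          intro hd
          have : 4 ∣ p + 1 := by simpa using hd
          omega
        · -- `s = 3`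
          have hle : 2 ≤ padicValNat 2 (24 / Nat.gcd (p - 1) 12) :=
            (padicValNat_dvd_iff_le ht0).mp (by
              norm_num
              exact four_dvd_of_mod (by omega) h3)
          by_cases h8 : 8 ∣ p + 1
          · exact NoConst.mono (by omega : 3 ≤ _) (hD h8)
          · refine NoConst.mono (by omega : 3 ≤ _) (hA Nat.prime_two ?_)
            intro hd
            exact h8 (by simpa using hd)
    · -- `l = 3`
      by_cases hp3 : p = 3
      · subst hp3
        exact NoConst.mono (by omega) hself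
      · have hmod : p % 3 = 1 ∨ p % 3 = 2 := by
          have h0 : p % 3 ≠ 0 := by
            intro h0
            have hdvd : 3 ∣ p := Nat.dvd_of_mod_eq_zero h0
            exact hp3 ((Nat.prime_dvd_prime_iff_eq Nat.prime_three hp).mp hdvd).symm
          omega
        rcases hmod with h1 | h2
        · -- `s = 1`
          refine NoConst.mono (by omega : 1 ≤ _) (hA Nat.prime_three ?_)
          rw [pow_one]
          intro hd
          omega
        · -- `s = 2`
          have hle : 1 ≤ padicValNat 3 (24 / Nat.gcd (p - 1) 12) :=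
            (padicValNat_dvd_iff_le ht0).mp (by rw [pow_one]; exact three_dvd_of_mod (by omega) h2)
          by_cases h9 : 9 ∣ p + 1
          · exact NoConst.mono (by omega : 2 ≤ _) (hC h9)
          · refine NoConst.mono (by omega : 2 ≤ _) (hA Nat.prime_three ?_)
            intro hd
            exact h9 (by simpa using hd)
  · -- `l ≥ 5`
    by_cases hdvd : l ∣ p + 1
    · exact NoConst.mono (by omega : 1 ≤ _) (hB hl h5 hdvd)
    · refine NoConst.mono (by omega : 1 ≤ _) (hA hl ?_)
      rw [pow_one]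
      exact hdvd

/-- **(NE)** from the four case statements. -/
theorem main_of_cases (p : ℕ) [Fact p.Prime]
    (hA : ∀ {l s : ℕ}, l.Prime → ¬ l ^ s ∣ p + 1 → NoConst p l s)
    (hB : ∀ {l : ℕ}, l.Prime → 5 ≤ l → l ∣ p + 1 → NoConst p l 1)
    (hC : 9 ∣ p + 1 → NoConst p 3 2)
    (hD : 8 ∣ p + 1 → NoConst p 2 3)
    (m : ℕ) (G : ModularForm (Gamma0 p) 2)
    (h0 : (qExpansion 1 G).coeff 0 = (p : ℂ) - 1)
    (hn : ∀ k : ℕ, k ≠ 0 → ∃ z : ℤ, (qExpansion 1 G).coeff k = 24 * (m : ℂ) * z) :
    m ∣ ModularCurve.eisensteinNumerator p :=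
  main_of_noConst p (noConst_all_of_cases p hA hB hC hD) m G h0 hn

end Fermat.Agent.S16.NE
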