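import Fermat.Agent.S16.NE.Interface
import Fermat.Agent.S16.TraceBridge

/-!
# The analytic interface of (NE) holds

`UpUp p`, `TraceZero p` and `NormQ p` (the three statements of `NE/Interface.lean`) are proved
from `TraceQ.lean` / `TraceBridge.lean`.
-/

set_option autoImplicit false

open UpperHalfPlane ModularForm EisensteinSeries CongruenceSubgroup
open scoped MatrixGroups ModularForm

namespace Fermat.Agent.S16.NE

theorem Up_eq_traceQ (p : ℕ) (f : PowerSeries ℂ) : Up p f = TraceQ.Up p f := rfl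

theorem zetaP_eq (p : ℕ) : zetaP p = ConjQ.zeta p := rfl

theorem conjSeries_eq_conjQ (p j : ℕ) (f : PowerSeries ℂ) :
    conjSeries p j f = TraceQ.conjQ p f j :=
  (TraceQ.conjQ_eq_rescale p f j).symm

variable (p : ℕ) [hp : Fact p.Prime]

/-- `U_p² = 1` on cusp forms. -/
theorem upUp : UpUp p := fun g =>
  TraceQ.T1 (g : ModularForm (Gamma0 p) 2)

/-- `U_p² = 1` on modular forms. -/
theorem upUp_modularForm (G : ModularForm (Gamma0 p) 2) :
    Up p (Up p (qExpansion 1 G)) = qExpansion 1 G :=
  TraceQ.T1 G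

/-- The trace of `G * g` vanishes. -/
theorem traceZero : TraceZero p := fun G g =>
  TraceBridge.traceZero G g

/-- The norm formula. -/
theorem normQ : NormQ p := by
  intro G Ψ w hΨ
  obtain ⟨N, hN⟩ := TraceQ.NORM G w Ψ hΨ
  refine ⟨N, ?_⟩
  rw [hN]
  simp only [evalPt, conjSeries_eq_conjQ]

end Fermat.Agent.S16.NE
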