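import Fermat.Agent.S16.NE.Defs
import Fermat.Agent.S16.NE.Cores
import Fermat.Agent.S16.NE.InterfaceProofs

/-!
# S16 (NE), case (C): `9 ∣ p + 1 ⇒` no `G ≡ 1 mod 9`

`caseC`: if `9 ∣ p + 1` there is no `G ∈ M₂(Γ₀(p))` with `q`-expansion in `1 + 9 q ℤ_(3)[[q]]`.
Proof: the norm of `(G³ - E₆) / 9` (weight `6 (p + 1)`) is `≡ (56 ∑ σ₅(n) qⁿ)^(p+1) mod 3`, of
`q`-order `p + 1 > 6 (p + 1) / 12` (`norm_case` + `core6'` + `normQ`).

The file also contains the bridge `lcongr_of_isOneMod` from the `LDiv`/`IsOneMod` interface of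
`NE/Defs.lean` to the `lInt`/`LCongr` interface of `NE/SeriesMod.lean`.
-/

set_option autoImplicit false

open UpperHalfPlane ModularForm EisensteinSeries CongruenceSubgroup
open scoped MatrixGroups ModularForm

namespace Fermat.Agent.S16.NE

/-- `l ^ s • ℤ_(l) ⊆ l ^ s • lInt l`. -/
theorem mem_lMul_of_lDiv {l s : ℕ} (hl : l.Prime) {x : ℂ} (hx : LDiv l s x) : x ∈ lMul l s := by
  obtain ⟨a, b, hb, h⟩ := hx
  have hb0 : (b : ℂ) ≠ 0 := by
    intro h0
    have : b = 0 := by exact_mod_cast h0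
    exact hb (this ▸ dvd_zero _)
  have hcop : (b.natAbs).Coprime l := by
    apply Nat.Coprime.symm
    rw [Nat.Prime.coprime_iff_not_dvd hl]
    intro hd
    exact hb (Int.natCast_dvd.mpr hd)
  have hinv : ((b : ℂ))⁻¹ ∈ lInt l := by
    have h1 := inv_natCast_mem_lInt hcop
    rcases Int.natAbs_eq b with hb' | hb'
    · have e : (b : ℂ) = ((b.natAbs : ℕ) : ℂ) := by
        have := congrArg (Int.cast : ℤ → ℂ) hb'
        rwa [Int.cast_natCast] at this
      rw [e]
      exact h1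
    · have e : (b : ℂ) = -((b.natAbs : ℕ) : ℂ) := by
        have := congrArg (Int.cast : ℤ → ℂ) hb'
        rwa [Int.cast_neg, Int.cast_natCast] at this
      rw [e, inv_neg]
      exact (lInt l).neg_mem h1
  refine ⟨(a : ℂ) * (b : ℂ)⁻¹, (lInt l).mul_mem (intCast_mem _ a) hinv, ?_⟩
  field_simp
  exact h

/-- The bridge from `IsOneMod` to `LCongr`. -/
theorem lcongr_of_isOneMod {p l s : ℕ} (hl : l.Prime) {G : ModularForm (Gamma0 p) 2}
    (hG : IsOneMod p l s G) : LCongr l s (qExpansion 1 G) 1 := by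
  intro n
  rw [map_sub, PowerSeries.coeff_one]
  split_ifs with hn
  · rw [hn, hG.1, sub_self]
    exact (lMul l s).zero_mem
  · rw [sub_zero]
    exact mem_lMul_of_lDiv hl (hG.2 n hn)

/-- **Case (C)**: if `9 ∣ p + 1`, no `G ∈ M₂(Γ₀(p))` is `≡ 1 mod 9`. -/
theorem caseC (p : ℕ) [hp : Fact p.Prime] (h : 9 ∣ p + 1) : NoConst p 3 2 := by
  intro G hG
  have : Fact (Nat.Prime 3) := ⟨Nat.prime_three⟩
  have h3p : 3 ≠ p := by
    rintro rfl
    omega
  exact norm_case h3p 2 (by simpa using h) Psi6' 6 (by norm_num) Psi6'_homog r6'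
    r6'_coeff_zero (by rw [r6'_coeff_one]; decide) (core6' p) (normQ p) G
    (lcongr_of_isOneMod Nat.prime_three hG)

end Fermat.Agent.S16.NE
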