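import Mathlib
import Fermat.Agent.S16.NE.Defs

/-!
# S16 / NE: the ring of complex numbers integral at a prime `ℓ`

`Oloc ℓ = {x ∈ ℂ | ∃ m, ℓ ∤ m ∧ m x is an algebraic integer}` is a subring of `ℂ` containing the
algebraic integers and `1 / m` for `ℓ ∤ m`, and `1 ∉ ℓ • Oloc ℓ`.  We also provide the subring
`serSub O` of power series with coefficients in a subring `O ⊆ ℂ`, and the additive subgroup
`smulAddSubgroup c O = c • O` used as the modulus in the level-one Sturm bound.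
-/

set_option autoImplicit false

namespace Fermat.Agent.S16.NE.LocRing

/-- The ring of complex numbers which are integral at `ℓ`. -/
def Oloc (ℓ : ℕ) (hℓ : ℓ.Prime) : Subring ℂ where
  carrier := {x | ∃ m : ℕ, ¬ ℓ ∣ m ∧ IsIntegral ℤ ((m : ℂ) * x)}
  mul_mem' := by
    rintro x y ⟨m, hm, hx⟩ ⟨n, hn, hy⟩
    refine ⟨m * n, fun h => ?_, ?_⟩
    · rcases (Nat.Prime.dvd_mul hℓ).mp h with h | h
      · exact hm h
      · exact hn h
    · have : ((m * n : ℕ) : ℂ) * (x * y) = ((m : ℂ) * x) * ((n : ℂ) * y) := by push_cast; ring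
      rw [this]
      exact hx.mul hy
  one_mem' := ⟨1, fun h => hℓ.one_lt.ne' (Nat.dvd_one.mp h), by simpa using isIntegral_one⟩
  add_mem' := by
    rintro x y ⟨m, hm, hx⟩ ⟨n, hn, hy⟩
    refine ⟨m * n, fun h => ?_, ?_⟩
    · rcases (Nat.Prime.dvd_mul hℓ).mp h with h | h
      · exact hm h
      · exact hn h
    · have : ((m * n : ℕ) : ℂ) * (x + y) = (n : ℂ) * ((m : ℂ) * x) + (m : ℂ) * ((n : ℂ) * y) := by
        push_cast; ring
      rw [this]
      have hn' : IsIntegral ℤ ((n : ℂ)) := by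
        simpa using isIntegral_algebraMap (R := ℤ) (A := ℂ) (x := (n : ℤ))
      have hm' : IsIntegral ℤ ((m : ℂ)) := by
        simpa using isIntegral_algebraMap (R := ℤ) (A := ℂ) (x := (m : ℤ))
      exact (hn'.mul hx).add (hm'.mul hy)
  zero_mem' := ⟨1, fun h => hℓ.one_lt.ne' (Nat.dvd_one.mp h), by simpa using isIntegral_zero⟩
  neg_mem' := by
    rintro x ⟨m, hm, hx⟩
    refine ⟨m, hm, ?_⟩
    rw [mul_neg]
    exact hx.neg

variable {ℓ : ℕ} (hℓ : ℓ.Prime)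

theorem mem_Oloc {x : ℂ} : x ∈ Oloc ℓ hℓ ↔ ∃ m : ℕ, ¬ ℓ ∣ m ∧ IsIntegral ℤ ((m : ℂ) * x) :=
  Iff.rfl

/-- Algebraic integers are integral at `ℓ`. -/
theorem mem_Oloc_of_isIntegral {x : ℂ} (hx : IsIntegral ℤ x) : x ∈ Oloc ℓ hℓ :=
  ⟨1, fun h => hℓ.one_lt.ne' (Nat.dvd_one.mp h), by simpa using hx⟩

theorem intCast_mem_Oloc (n : ℤ) : (n : ℂ) ∈ Oloc ℓ hℓ := intCast_mem _ n

theorem natCast_mem_Oloc (n : ℕ) : (n : ℂ) ∈ Oloc ℓ hℓ := natCast_mem _ n

/-- `a / m ∈ Oloc ℓ` for an integer `a` and `ℓ ∤ m`. -/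
theorem int_div_mem_Oloc (a : ℤ) {m : ℕ} (hm : ¬ ℓ ∣ m) : (a : ℂ) / (m : ℂ) ∈ Oloc ℓ hℓ := by
  refine ⟨m, hm, ?_⟩
  have hm0 : (m : ℂ) ≠ 0 := by
    intro h
    have : m = 0 := by exact_mod_cast h
    exact hm (this ▸ dvd_zero _)
  rw [mul_div_cancel₀ _ hm0]
  exact isIntegral_algebraMap (R := ℤ) (A := ℂ) (x := a)

/-- `1 / m ∈ Oloc ℓ` for `ℓ ∤ m`. -/
theorem inv_natCast_mem_Oloc {m : ℕ} (hm : ¬ ℓ ∣ m) : ((m : ℂ))⁻¹ ∈ Oloc ℓ hℓ := by
  have h := int_div_mem_Oloc hℓ 1 hm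
  simpa using h

/-- Roots of unity are integral at `ℓ`. -/
theorem mem_Oloc_of_pow_eq_one {x : ℂ} {n : ℕ} (hn : 0 < n) (hx : x ^ n = 1) : x ∈ Oloc ℓ hℓ := by
  refine mem_Oloc_of_isIntegral hℓ ?_
  refine ⟨Polynomial.X ^ n - 1, Polynomial.monic_X_pow_sub_C 1 hn.ne', ?_⟩
  simp [hx]

/-- `exp (2 π i k / n)` is integral at `ℓ`. -/
theorem exp_mem_Oloc (k : ℕ) {n : ℕ} (hn : 0 < n) :
    Complex.exp (2 * Real.pi * Complex.I * (k : ℂ) / (n : ℂ)) ∈ Oloc ℓ hℓ := by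
  refine mem_Oloc_of_pow_eq_one hℓ hn ?_
  have hn0 : (n : ℂ) ≠ 0 := by exact_mod_cast hn.ne'
  rw [← Complex.exp_nat_mul, Complex.exp_eq_one_iff]
  refine ⟨k, ?_⟩
  push_cast
  field_simp

/-- A rational number which is integral at `ℓ` has denominator prime to `ℓ`: here in the only
form we need, `1 / ℓ ∉ Oloc ℓ`. -/
theorem inv_prime_notMem_Oloc : ((ℓ : ℂ))⁻¹ ∉ Oloc ℓ hℓ := by
  rintro ⟨m, hm, hint⟩
  have hℓ0 : (ℓ : ℚ) ≠ 0 := by exact_mod_cast hℓ.ne_zero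
  have h1 : ((m : ℂ)) * ((ℓ : ℂ))⁻¹ = algebraMap ℚ ℂ ((m : ℚ) / (ℓ : ℚ)) := by
    simp [div_eq_mul_inv]
  rw [h1, isIntegral_algebraMap_iff (algebraMap ℚ ℂ).injective] at hint
  obtain ⟨z, hz⟩ := IsIntegrallyClosed.isIntegral_iff.mp hint
  have h2 : (z : ℚ) * (ℓ : ℚ) = (m : ℚ) := by
    rw [show (algebraMap ℤ ℚ) z = (z : ℚ) from rfl] at hz
    rw [hz]; field_simp
  have h3 : z * (ℓ : ℤ) = (m : ℤ) := by exact_mod_cast h2
  apply hm
  have h4 : (ℓ : ℤ) ∣ (m : ℤ) := ⟨z, by rw [← h3]; ring⟩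
  exact_mod_cast h4

/-- `1 ∉ ℓ • Oloc ℓ`. -/
theorem one_ne_prime_mul {x : ℂ} (hx : x ∈ Oloc ℓ hℓ) : (1 : ℂ) ≠ (ℓ : ℂ) * x := by
  intro h
  have hℓ0 : (ℓ : ℂ) ≠ 0 := by exact_mod_cast hℓ.ne_zero
  have : x = ((ℓ : ℂ))⁻¹ := by
    field_simp
    rw [mul_comm]; exact h.symm
  exact inv_prime_notMem_Oloc hℓ (this ▸ hx)

/-- An element of `ℓ ^ s • ℤ_(ℓ)` is `ℓ ^ s` times an element of `Oloc ℓ`. -/
theorem exists_eq_pow_mul_of_LDiv {s : ℕ} {x : ℂ} (hx : Fermat.Agent.S16.NE.LDiv ℓ s x) :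
    ∃ y ∈ Oloc ℓ hℓ, x = (ℓ : ℂ) ^ s * y := by
  obtain ⟨a, b, hb, h⟩ := hx
  have hb0 : (b : ℂ) ≠ 0 := by
    intro h0
    have : b = 0 := by exact_mod_cast h0
    exact hb (this ▸ dvd_zero _)
  refine ⟨(a : ℂ) / (b : ℂ), ?_, ?_⟩
  · refine ⟨b.natAbs, fun hd => hb (Int.natCast_dvd.mpr hd), ?_⟩
    have h1 : ((b.natAbs : ℕ) : ℂ) = (((b.natAbs : ℕ) : ℤ) : ℂ) := (Int.cast_natCast _).symm
    rw [h1]
    rcases Int.natAbs_eq b with hb' | hb'
    · have h2 : (((b.natAbs : ℕ) : ℤ) : ℂ) = (b : ℂ) := by rw [← hb']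
      rw [h2, mul_div_cancel₀ _ hb0]
      exact isIntegral_algebraMap (R := ℤ) (A := ℂ) (x := a)
    · have h2 : (((b.natAbs : ℕ) : ℤ) : ℂ) = -(b : ℂ) := by
        have : ((b.natAbs : ℕ) : ℤ) = -b := by omega
        rw [this, Int.cast_neg]
      rw [h2, neg_mul, mul_div_cancel₀ _ hb0]
      exact (isIntegral_algebraMap (R := ℤ) (A := ℂ) (x := a)).neg
  · field_simp
    linear_combination h

/-! ### Power series with coefficients in a subring -/

/-- Power series all of whose coefficients lie in the subring `O`. -/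
def serSub (O : Subring ℂ) : Subring (PowerSeries ℂ) where
  carrier := {f | ∀ n, PowerSeries.coeff n f ∈ O}
  mul_mem' := by
    intro f g hf hg n
    rw [PowerSeries.coeff_mul]
    exact Subring.sum_mem _ fun ij _ => O.mul_mem (hf _) (hg _)
  one_mem' := by
    intro n
    rw [PowerSeries.coeff_one]
    split_ifs
    · exact O.one_mem
    · exact O.zero_mem
  add_mem' := by
    intro f g hf hg n
    rw [map_add]
    exact O.add_mem (hf n) (hg n)
  zero_mem' := by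
    intro n
    rw [map_zero]
    exact O.zero_mem
  neg_mem' := by
    intro f hf n
    rw [map_neg]
    exact O.neg_mem (hf n)

theorem mem_serSub {O : Subring ℂ} {f : PowerSeries ℂ} :
    f ∈ serSub O ↔ ∀ n, PowerSeries.coeff n f ∈ O := Iff.rfl

theorem C_mem_serSub {O : Subring ℂ} {c : ℂ} (hc : c ∈ O) : PowerSeries.C c ∈ serSub O := by
  intro n
  rw [PowerSeries.coeff_C]
  split_ifs
  · exact hc
  · exact O.zero_mem

theorem map_int_mem_serSub (O : Subring ℂ) (f : PowerSeries ℤ) :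
    PowerSeries.map (Int.castRingHom ℂ) f ∈ serSub O := by
  intro n
  rw [PowerSeries.coeff_map]
  exact intCast_mem O _

theorem expand_mem_serSub {O : Subring ℂ} {f : PowerSeries ℂ} (hf : f ∈ serSub O) (p : ℕ)
    (hp : p ≠ 0) : PowerSeries.expand p hp f ∈ serSub O := by
  intro n
  rw [PowerSeries.coeff_expand]
  split_ifs
  · exact hf _
  · exact O.zero_mem

/-- A congruence of products modulo `c`: if every factor is `≡ d` modulo `c • serSub O`, so is the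
product `≡ d ^ card`. -/
theorem prod_sub_pow_mem {O : Subring ℂ} {c d : PowerSeries ℂ} (hc : c ∈ serSub O)
    (hd : d ∈ serSub O) {ι : Type*} (s : Finset ι) (f : ι → PowerSeries ℂ)
    (h : ∀ i ∈ s, ∃ r ∈ serSub O, f i - d = c * r) :
    ∃ r ∈ serSub O, ∏ i ∈ s, f i - d ^ s.card = c * r := by
  classical
  induction s using Finset.induction_on with
  | empty => exact ⟨0, (serSub O).zero_mem, by simp⟩
  | insert a s ha ih =>
    obtain ⟨r₁, hr₁, e₁⟩ := h a (Finset.mem_insert_self a s)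
    obtain ⟨r₂, hr₂, e₂⟩ := ih fun i hi => h i (Finset.mem_insert_of_mem hi)
    refine ⟨d * r₂ + r₁ * d ^ s.card + c * r₁ * r₂, ?_, ?_⟩
    · exact (serSub O).add_mem ((serSub O).add_mem ((serSub O).mul_mem hd hr₂)
        ((serSub O).mul_mem hr₁ ((serSub O).pow_mem hd _)))
        ((serSub O).mul_mem ((serSub O).mul_mem hc hr₁) hr₂)
    · rw [Finset.prod_insert ha, Finset.card_insert_of_notMem ha, pow_succ]
      have e₁' : f a = d + c * r₁ := by rw [← e₁]; ring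
      have e₂' : ∏ i ∈ s, f i = d ^ s.card + c * r₂ := by rw [← e₂]; ring
      rw [e₁', e₂']
      ring

end Fermat.Agent.S16.NE.LocRing
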