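import Mathlib
import Fermat.Agent.S16.NE.Defs
import Fermat.Agent.S16.NE.LocRing
import Fermat.Agent.S16.TraceDefs
import Fermat.Agent.S16.LevelOneSturm
import Fermat.Agent.S16.TraceBridge

/-!
# S16 / NE, case (D): no `G ∈ M₂(Γ₀(p))` is `≡ 1 mod 8` when `8 ∣ p + 1`

(helper16's "Weierstrass `b₈`" trick.)  For `G = 1 + 8 h` put
`b₈ := (G⁴ - 6 G² E₄ + 8 G E₆ - 3 E₄²) / 6912 ∈ M₈(Γ₀(p))`.  Every conjugate of `G` is `≡ 1 mod 8`
(because `-1/p ≡ 1 mod 8`), and for every series `x = 1 + 8 y` one has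
`b₈(x, E₄, E₆) ≡ Δ mod 2`.  Hence the norm of `b₈`, a level-one form of weight `8 (p + 1)`, is
`≡ Δ^(p+1) mod 2`: its `q`-order modulo `2` is `p + 1 > 8 (p + 1) / 12`, contradicting the
level-one Sturm bound.

The modular input is `TraceNorm p _ G` (the `q`-expansion of the norm), taken as a hypothesis in
`caseD_of_norm` and discharged by `Fermat.Agent.S16.TraceBridge.traceNorm` in `caseD`.
-/

set_option autoImplicit false

open UpperHalfPlane ModularForm ModularFormClass EisensteinSeries CongruenceSubgroup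
open scoped MatrixGroups ModularForm

namespace Fermat.Agent.S16.NE

namespace CaseD

open Fermat.Agent.S22.DeltaInt Fermat.Agent.S16.NE.LocRing

/-! ### `σ₃ ≡ σ₅ mod 8` -/

theorem eight_dvd (d : ℕ) : (8 : ℤ) ∣ (d : ℤ) ^ 3 - (d : ℤ) ^ 5 := by
  have h : ∀ x : ZMod 8, x ^ 3 - x ^ 5 = 0 := by decide
  have h2 := h (d : ZMod 8)
  have h3 : (((d : ℤ) ^ 3 - (d : ℤ) ^ 5 : ℤ) : ZMod 8) = 0 := by
    push_cast
    exact h2
  exact (ZMod.intCast_zmod_eq_zero_iff_dvd _ 8).mp h3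

theorem eight_dvd_sigma (m : ℕ) :
    (8 : ℤ) ∣ ((ArithmeticFunction.sigma 3 m : ℕ) : ℤ) - ((ArithmeticFunction.sigma 5 m : ℕ) : ℤ) := by
  rw [ArithmeticFunction.sigma_apply, ArithmeticFunction.sigma_apply]
  push_cast
  rw [← Finset.sum_sub_distrib]
  exact Finset.dvd_sum fun d _ => eight_dvd d

/-- `W = (A - B) / 8`, `A = ∑ σ₃(n) Xⁿ`, `B = ∑ σ₅(n) Xⁿ`. -/
noncomputable def sW : PowerSeries ℤ :=
  PowerSeries.mk fun m => if m = 0 then 0 else
    (((ArithmeticFunction.sigma 3 m : ℕ) : ℤ) - ((ArithmeticFunction.sigma 5 m : ℕ) : ℤ)) / 8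

theorem sA_sub_sB : sA - sB = 8 * sW := by
  ext m
  have h8 : (8 : PowerSeries ℤ) = PowerSeries.C (8 : ℤ) := by simp
  rw [h8, map_sub, PowerSeries.coeff_C_mul, sA, sB, sW, PowerSeries.coeff_mk,
    PowerSeries.coeff_mk, PowerSeries.coeff_mk]
  split_ifs with hm
  · simp
  · rw [Int.mul_ediv_cancel' (eight_dvd_sigma m)]

/-! ### The polynomial `b₈` -/

/-- `b₈ = (x₂⁴ - 6 x₂² x₄ + 8 x₂ x₆ - 3 x₄²) / 6912`, isobaric of weight `8`. -/
noncomputable def b8 : MvPolynomial (Fin 3) ℂ :=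
  (1 / 6912 : ℂ) • (MvPolynomial.X 0 ^ 4 - 6 * MvPolynomial.X 0 ^ 2 * MvPolynomial.X 1
    + 8 * MvPolynomial.X 0 * MvPolynomial.X 2 - 3 * MvPolynomial.X 1 ^ 2)

theorem b8_isWeightedHomogeneous :
    MvPolynomial.IsWeightedHomogeneous (![2, 4, 6] : Fin 3 → ℕ) b8 8 := by
  have h0 : MvPolynomial.IsWeightedHomogeneous (![2, 4, 6] : Fin 3 → ℕ)
      (MvPolynomial.X 0 : MvPolynomial (Fin 3) ℂ) 2 :=
    MvPolynomial.isWeightedHomogeneous_X ℂ _ 0
  have h1 : MvPolynomial.IsWeightedHomogeneous (![2, 4, 6] : Fin 3 → ℕ)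
      (MvPolynomial.X 1 : MvPolynomial (Fin 3) ℂ) 4 :=
    MvPolynomial.isWeightedHomogeneous_X ℂ _ 1
  have h2 : MvPolynomial.IsWeightedHomogeneous (![2, 4, 6] : Fin 3 → ℕ)
      (MvPolynomial.X 2 : MvPolynomial (Fin 3) ℂ) 6 :=
    MvPolynomial.isWeightedHomogeneous_X ℂ _ 2
  have hc : ∀ c : ℂ, MvPolynomial.IsWeightedHomogeneous (![2, 4, 6] : Fin 3 → ℕ)
      (MvPolynomial.C c : MvPolynomial (Fin 3) ℂ) 0 :=
    fun c => MvPolynomial.isWeightedHomogeneous_C _ c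
  have t1 : MvPolynomial.IsWeightedHomogeneous (![2, 4, 6] : Fin 3 → ℕ)
      (MvPolynomial.X 0 ^ 4 : MvPolynomial (Fin 3) ℂ) 8 := by
    have := h0.pow 4
    simpa using this
  have t2 : MvPolynomial.IsWeightedHomogeneous (![2, 4, 6] : Fin 3 → ℕ)
      (6 * MvPolynomial.X 0 ^ 2 * MvPolynomial.X 1 : MvPolynomial (Fin 3) ℂ) 8 := by
    have := ((hc 6).mul (h0.pow 2)).mul h1
    rw [show (6 : MvPolynomial (Fin 3) ℂ) = MvPolynomial.C 6 from (map_ofNat _ 6).symm]
    simpa using this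
  have t3 : MvPolynomial.IsWeightedHomogeneous (![2, 4, 6] : Fin 3 → ℕ)
      (8 * MvPolynomial.X 0 * MvPolynomial.X 2 : MvPolynomial (Fin 3) ℂ) 8 := by
    have := ((hc 8).mul h0).mul h2
    rw [show (8 : MvPolynomial (Fin 3) ℂ) = MvPolynomial.C 8 from (map_ofNat _ 8).symm]
    simpa using this
  have t4 : MvPolynomial.IsWeightedHomogeneous (![2, 4, 6] : Fin 3 → ℕ)
      (3 * MvPolynomial.X 1 ^ 2 : MvPolynomial (Fin 3) ℂ) 8 := by
    have := (hc 3).mul (h1.pow 2)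
    rw [show (3 : MvPolynomial (Fin 3) ℂ) = MvPolynomial.C 3 from (map_ofNat _ 3).symm]
    simpa using this
  exact (MvPolynomial.weightedHomogeneousSubmodule ℂ _ 8).smul_mem _ (((t1.sub t2).add t3).sub t4)

theorem aeval_b8 (x : Fin 3 → PowerSeries ℂ) :
    MvPolynomial.aeval x b8 = PowerSeries.C (1 / 6912 : ℂ) *
      (x 0 ^ 4 - 6 * x 0 ^ 2 * x 1 + 8 * x 0 * x 2 - 3 * x 1 ^ 2) := by
  rw [b8, map_smul, PowerSeries.smul_eq_C_mul]
  simp

/-! ### The congruence `b₈(1 + 8 y, E₄, E₆) ≡ Δ mod 2` -/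

/-- Pure algebra: for `x = 1 + 8 y`, `b₈(x, 1 + 240 A, 1 - 504 B) - Δ = 2 r` with `r` integral at
`2`, where `Δ = C + 100 A² + 8000 A³ - 147 B²`, `12 C = 5 A + 7 B`, `A - B = 8 W`. -/
theorem b8_sub_delta {O : Subring ℂ} (h3 : PowerSeries.C (1 / 3 : ℂ) ∈ serSub O)
    (h27 : PowerSeries.C (1 / 27 : ℂ) ∈ serSub O) {y A B Cc W : PowerSeries ℂ}
    (hy : y ∈ serSub O) (hA : A ∈ serSub O) (hB : B ∈ serSub O) (hCc : Cc ∈ serSub O)
    (hW : W ∈ serSub O) (hAB : A - B = 8 * W) (hC : 5 * A + 7 * B = 12 * Cc) :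
    ∃ r ∈ serSub O,
      MvPolynomial.aeval (![1 + 8 * y, 1 + 240 * A, 1 - 504 * B] : Fin 3 → PowerSeries ℂ) b8
        - (Cc + 100 * A ^ 2 + 8000 * A ^ 3 - 147 * B ^ 2) = 2 * r := by
  set k : PowerSeries ℂ := PowerSeries.C (1 / 6912 : ℂ) with hk
  set t : PowerSeries ℂ := PowerSeries.C (1 / 27 : ℂ) with ht
  set u : PowerSeries ℂ := PowerSeries.C (1 / 3 : ℂ) with hu
  have e1 : 6912 * k = 1 := by
    rw [hk, ← map_ofNat (PowerSeries.C (R := ℂ)) 6912, ← map_mul]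
    norm_num
  have e2 : 256 * k = t := by
    rw [hk, ht, ← map_ofNat (PowerSeries.C (R := ℂ)) 256, ← map_mul]
    norm_num
  have e3 : 2304 * k = u := by
    rw [hk, hu, ← map_ofNat (PowerSeries.C (R := ℂ)) 2304, ← map_mul]
    norm_num
  have hnat : ∀ n : ℕ, (n : PowerSeries ℂ) ∈ serSub O := fun n => natCast_mem _ n
  have h4 : (4 : PowerSeries ℂ) ∈ serSub O := by exact_mod_cast hnat 4
  have h5 : (5 : PowerSeries ℂ) ∈ serSub O := by exact_mod_cast hnat 5
  have h7 : (7 : PowerSeries ℂ) ∈ serSub O := by exact_mod_cast hnat 7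
  have h8 : (8 : PowerSeries ℂ) ∈ serSub O := by exact_mod_cast hnat 8
  have h11 : (11 : PowerSeries ℂ) ∈ serSub O := by exact_mod_cast hnat 11
  have h20 : (20 : PowerSeries ℂ) ∈ serSub O := by exact_mod_cast hnat 20
  have h588 : (588 : PowerSeries ℂ) ∈ serSub O := by exact_mod_cast hnat 588
  have h4000 : (4000 : PowerSeries ℂ) ∈ serSub O := by exact_mod_cast hnat 4000
  have mm := fun {a b : PowerSeries ℂ} (ha : a ∈ serSub O) (hb : b ∈ serSub O) =>
    (serSub O).mul_mem ha hb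
  have pm := fun {a : PowerSeries ℂ} (ha : a ∈ serSub O) (n : ℕ) => (serSub O).pow_mem ha n
  refine ⟨4 * t * y ^ 3 + 8 * t * y ^ 4 - Cc - 5 * u * y * A - 20 * u * y ^ 2 * A - 7 * u * y * B
    - 588 * W * (A + B) + 11 * A ^ 2 - 4000 * A ^ 3, ?_, ?_⟩
  · refine (serSub O).sub_mem ((serSub O).add_mem ((serSub O).sub_mem ((serSub O).sub_mem
      ((serSub O).sub_mem ((serSub O).sub_mem ((serSub O).sub_mem ((serSub O).add_mem ?_ ?_) hCc)
      ?_) ?_) ?_) ?_) ?_) ?_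
    · exact mm (mm h4 h27) (pm hy 3)
    · exact mm (mm h8 h27) (pm hy 4)
    · exact mm (mm (mm h5 h3) hy) hA
    · exact mm (mm (mm h20 h3) (pm hy 2)) hA
    · exact mm (mm (mm h7 h3) hy) hB
    · exact mm (mm h588 hW) ((serSub O).add_mem hA hB)
    · exact mm h11 (pm hA 2)
    · exact mm h4000 (pm hA 3)
  · rw [aeval_b8]
    simp only [Matrix.cons_val_zero, Matrix.cons_val_one, Matrix.cons_val_two, Matrix.head_cons,
      Matrix.tail_cons]
    rw [← hk]
    linear_combination (-25 * A ^ 2 - Cc) * e1 + (-576 * k) * hC + (-147 * (A + B)) * hAB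
      + (8 * y ^ 3 + 16 * y ^ 4) * e2 + (-10 * y * A - 40 * y ^ 2 * A - 14 * y * B) * e3

/-! ### Series `≡ 1 mod 8` -/

theorem exists_eq_one_add_eight_mul {O : Subring ℂ} (x : PowerSeries ℂ)
    (h : ∀ n, (PowerSeries.coeff n x - if n = 0 then 1 else 0) / 8 ∈ O) :
    ∃ y ∈ serSub O, x = 1 + 8 * y := by
  refine ⟨PowerSeries.mk fun n => (PowerSeries.coeff n x - if n = 0 then 1 else 0) / 8,
    fun n => by rw [PowerSeries.coeff_mk]; exact h n, ?_⟩
  ext n
  have h8 : (8 : PowerSeries ℂ) = PowerSeries.C (8 : ℂ) := (map_ofNat _ 8).symm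
  rw [map_add, h8, PowerSeries.coeff_C_mul, PowerSeries.coeff_mk, PowerSeries.coeff_one]
  ring

/-- The expansion at `∞` (in the variable `q^(1/p)`): `g(q^p) = 1 + 8 y`. -/
theorem expand_eq_one_add {p : ℕ} (hp : p ≠ 0) {g : PowerSeries ℂ}
    (h0 : PowerSeries.coeff 0 g = 1) (hk : ∀ k : ℕ, k ≠ 0 → LDiv 2 3 (PowerSeries.coeff k g)) :
    ∃ y ∈ serSub (Oloc 2 Nat.prime_two), PowerSeries.expand p hp g = 1 + 8 * y := by
  refine exists_eq_one_add_eight_mul _ fun n => ?_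
  rw [PowerSeries.coeff_expand]
  by_cases hn : n = 0
  · subst hn
    simp [h0]
  · rw [if_neg hn, sub_zero]
    split_ifs with hd
    · have hne : n / p ≠ 0 := by
        intro h
        rcases (Nat.div_eq_zero_iff).mp h with h | h
        · exact hp h
        · exact hn (Nat.eq_zero_of_dvd_of_lt hd h)
      obtain ⟨y, hy, e⟩ := exists_eq_pow_mul_of_LDiv Nat.prime_two (hk _ hne)
      rw [e]
      have : ((2 : ℕ) : ℂ) ^ 3 * y / 8 = y := by push_cast; ring
      rw [this]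
      exact hy
    · simp

/-- The expansions of the other conjugates: `conjQ p g j = 1 + 8 y` when `8 ∣ p + 1`. -/
theorem conjQ_eq_one_add {p : ℕ} (hp : p ≠ 0) (h8 : 8 ∣ p + 1) {g : PowerSeries ℂ}
    (h0 : PowerSeries.coeff 0 g = 1) (hk : ∀ k : ℕ, k ≠ 0 → LDiv 2 3 (PowerSeries.coeff k g))
    (j : ℕ) :
    ∃ y ∈ serSub (Oloc 2 Nat.prime_two), conjQ p g j = 1 + 8 * y := by
  have hp2 : ¬ 2 ∣ p := by
    intro h2
    obtain ⟨m, hm⟩ := h8
    omega
  have hpC : (p : ℂ) ≠ 0 := by exact_mod_cast hp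
  have hinv : ((p : ℂ))⁻¹ ∈ Oloc 2 Nat.prime_two := inv_natCast_mem_Oloc Nat.prime_two hp2
  refine exists_eq_one_add_eight_mul _ fun n => ?_
  rw [coeff_conjQ]
  by_cases hn : n = 0
  · subst hn
    obtain ⟨m, hm⟩ := h8
    have hmC : (p : ℂ) + 1 = 8 * (m : ℂ) := by exact_mod_cast hm
    have : (-(1 / (p : ℂ)) * Complex.exp (2 * Real.pi * Complex.I * (j : ℂ) * ((0 : ℕ) : ℂ) / (p : ℂ))
        * PowerSeries.coeff (p * 0) g - if (0 : ℕ) = 0 then 1 else 0) / 8
        = -((m : ℤ) : ℂ) / (p : ℂ) := by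
      simp only [Nat.cast_zero, mul_zero, zero_div, Complex.exp_zero, h0, if_true]
      field_simp
      push_cast
      linear_combination -hmC
    rw [this, neg_div]
    exact neg_mem (int_div_mem_Oloc Nat.prime_two m hp2)
  · rw [if_neg hn, sub_zero]
    have hne : p * n ≠ 0 := Nat.mul_ne_zero hp hn
    obtain ⟨y, hy, e⟩ := exists_eq_pow_mul_of_LDiv Nat.prime_two (hk _ hne)
    rw [e]
    have hexp : Complex.exp (2 * Real.pi * Complex.I * (j : ℂ) * (n : ℂ) / (p : ℂ))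
        ∈ Oloc 2 Nat.prime_two := by
      have := exp_mem_Oloc Nat.prime_two (j * n) (Nat.pos_of_ne_zero hp)
      have e2 : 2 * Real.pi * Complex.I * ((j * n : ℕ) : ℂ) / (p : ℂ)
          = 2 * Real.pi * Complex.I * (j : ℂ) * (n : ℂ) / (p : ℂ) := by push_cast; ring
      rwa [e2] at this
    have : -(1 / (p : ℂ)) * Complex.exp (2 * Real.pi * Complex.I * (j : ℂ) * (n : ℂ) / (p : ℂ))
        * (((2 : ℕ) : ℂ) ^ 3 * y) / 8
        = -(((p : ℂ))⁻¹ * Complex.exp (2 * Real.pi * Complex.I * (j : ℂ) * (n : ℂ) / (p : ℂ)) * y) := by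
      push_cast; ring
    rw [this]
    exact neg_mem (mul_mem (mul_mem hinv hexp) hy)

/-! ### Powers of `Δ` -/

theorem coeff_deltaInt_pow_of_lt {m n : ℕ} (h : n < m) :
    PowerSeries.coeff n (deltaInt ^ m) = 0 := by
  have hX : (PowerSeries.X : PowerSeries ℤ) ∣ deltaInt := by
    rw [PowerSeries.X_dvd_iff, ← PowerSeries.coeff_zero_eq_constantCoeff_apply]
    exact Fermat.Agent.S16.LevelOneSturm.deltaInt_coeff_zero
  have hXm : (PowerSeries.X : PowerSeries ℤ) ^ m ∣ deltaInt ^ m := pow_dvd_pow_of_dvd hX m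
  exact PowerSeries.X_pow_dvd_iff.mp hXm n h

theorem coeff_deltaInt_pow_self (m : ℕ) : PowerSeries.coeff m (deltaInt ^ m) = 1 := by
  have hX : (PowerSeries.X : PowerSeries ℤ) ∣ deltaInt := by
    rw [PowerSeries.X_dvd_iff, ← PowerSeries.coeff_zero_eq_constantCoeff_apply]
    exact Fermat.Agent.S16.LevelOneSturm.deltaInt_coeff_zero
  obtain ⟨u, hu⟩ := hX
  have hu0 : PowerSeries.coeff 0 u = 1 := by
    have h1 := Fermat.Agent.S16.LevelOneSturm.deltaInt_coeff_one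
    rw [hu, show (1 : ℕ) = 0 + 1 from rfl, PowerSeries.coeff_succ_X_mul] at h1
    exact h1
  rw [hu, mul_pow]
  have := PowerSeries.coeff_X_pow_mul (u ^ m) m 0
  rw [zero_add] at this
  rw [this, PowerSeries.coeff_zero_eq_constantCoeff_apply, map_pow,
    ← PowerSeries.coeff_zero_eq_constantCoeff_apply, hu0, one_pow]

/-! ### The contradiction -/

/-- `2 • O₂` as an additive subgroup of `ℂ`. -/
def twoO : AddSubgroup ℂ :=
  (Oloc 2 Nat.prime_two).toAddSubgroup.map (AddMonoidHom.mulLeft (2 : ℂ))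

theorem mem_twoO {z : ℂ} : z ∈ twoO ↔ ∃ x ∈ Oloc 2 Nat.prime_two, 2 * x = z := by
  simp [twoO, AddSubgroup.mem_map]

theorem one_add_notMem_twoO {x : ℂ} (hx : x ∈ Oloc 2 Nat.prime_two) : 1 + 2 * x ∉ twoO := by
  rw [mem_twoO]
  rintro ⟨x', hx', e⟩
  refine one_ne_prime_mul Nat.prime_two (sub_mem hx' hx) ?_
  push_cast
  linear_combination -e

/-- **Case (D)**, with the norm input as a hypothesis. -/
theorem caseD_of_norm (p : ℕ) [hpF : Fact p.Prime] (h8 : 8 ∣ p + 1)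
    (G : ModularForm (Gamma0 p) 2) (hN : TraceNorm p hpF.out.ne_zero G) :
    ¬ IsOneMod p 2 3 G := by
  rintro ⟨h0, hk⟩
  have hp : p ≠ 0 := hpF.out.ne_zero
  obtain ⟨N, hNeq⟩ := hN 8 b8 b8_isWeightedHomogeneous
  set g := qExpansion 1 G with hg
  set O := Oloc 2 Nat.prime_two with hO
  -- the level-one series in the variable `q^(1/p)`
  set A := PowerSeries.expand p hp (PowerSeries.map (Int.castRingHom ℂ) sA) with hA
  set B := PowerSeries.expand p hp (PowerSeries.map (Int.castRingHom ℂ) sB) with hB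
  set Cc := PowerSeries.expand p hp (PowerSeries.map (Int.castRingHom ℂ) sC) with hCc
  set W := PowerSeries.expand p hp (PowerSeries.map (Int.castRingHom ℂ) sW) with hW
  set D := PowerSeries.expand p hp (PowerSeries.map (Int.castRingHom ℂ) deltaInt) with hD
  have hAm : A ∈ serSub O := expand_mem_serSub (map_int_mem_serSub O _) p hp
  have hBm : B ∈ serSub O := expand_mem_serSub (map_int_mem_serSub O _) p hp
  have hCm : Cc ∈ serSub O := expand_mem_serSub (map_int_mem_serSub O _) p hp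
  have hWm : W ∈ serSub O := expand_mem_serSub (map_int_mem_serSub O _) p hp
  have hDm : D ∈ serSub O := expand_mem_serSub (map_int_mem_serSub O _) p hp
  have hE4 : PowerSeries.expand p hp (qExpansion 1 E₄) = 1 + 240 * A := by
    rw [qExpansion_E4, map_add, map_mul, map_one, map_ofNat]
  have hE6 : PowerSeries.expand p hp (qExpansion 1 E₆) = 1 - 504 * B := by
    rw [qExpansion_E6, map_sub, map_mul, map_one, map_ofNat]
  have hDeq : D = Cc + 100 * A ^ 2 + 8000 * A ^ 3 - 147 * B ^ 2 := by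
    rw [hD, deltaInt]
    simp only [map_add, map_sub, map_mul, map_pow, map_ofNat]
    rfl
  have hAB : A - B = 8 * W := by
    have := congrArg (fun f => PowerSeries.expand p hp (PowerSeries.map (Int.castRingHom ℂ) f))
      sA_sub_sB
    simpa only [map_sub, map_mul, map_ofNat] using this
  have hC : 5 * A + 7 * B = 12 * Cc := by
    have := congrArg (fun f => PowerSeries.expand p hp (PowerSeries.map (Int.castRingHom ℂ) f))
      five_sA_add_seven_sB
    simpa only [map_add, map_mul, map_ofNat] using this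
  have h3 : PowerSeries.C (1 / 3 : ℂ) ∈ serSub O := by
    refine C_mem_serSub ?_
    have := inv_natCast_mem_Oloc Nat.prime_two (m := 3) (by norm_num)
    simpa using this
  have h27 : PowerSeries.C (1 / 27 : ℂ) ∈ serSub O := by
    refine C_mem_serSub ?_
    have := inv_natCast_mem_Oloc Nat.prime_two (m := 27) (by norm_num)
    simpa using this
  have h2m : (2 : PowerSeries ℂ) ∈ serSub O := by
    have : ((2 : ℕ) : PowerSeries ℂ) ∈ serSub O := natCast_mem _ 2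
    exact_mod_cast this
  -- every conjugate gives `b₈ ≡ Δ mod 2`
  have key : ∀ x : PowerSeries ℂ, (∃ y ∈ serSub O, x = 1 + 8 * y) →
      ∃ r ∈ serSub O, MvPolynomial.aeval (![x, PowerSeries.expand p hp (qExpansion 1 E₄),
        PowerSeries.expand p hp (qExpansion 1 E₆)] : Fin 3 → PowerSeries ℂ) b8 - D = 2 * r := by
    rintro x ⟨y, hy, rfl⟩
    rw [hE4, hE6, hDeq]
    exact b8_sub_delta h3 h27 hy hAm hBm hCm hWm hAB hC
  obtain ⟨r₀, hr₀, e₀⟩ := key _ (expand_eq_one_add hp h0 hk)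
  obtain ⟨r₁, hr₁, e₁⟩ := prod_sub_pow_mem h2m hDm (Finset.range p)
    (fun j => MvPolynomial.aeval (![conjQ p g j, PowerSeries.expand p hp (qExpansion 1 E₄),
        PowerSeries.expand p hp (qExpansion 1 E₆)] : Fin 3 → PowerSeries ℂ) b8)
    (fun j _ => key _ (conjQ_eq_one_add hp h8 h0 hk j))
  rw [Finset.card_range] at e₁
  -- the norm is `≡ Δ^(p+1) mod 2`
  set R := r₀ * D ^ p + D * r₁ + 2 * r₀ * r₁ with hR
  have hRm : R ∈ serSub O :=
    (serSub O).add_mem ((serSub O).add_mem ((serSub O).mul_mem hr₀ ((serSub O).pow_mem hDm p))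
      ((serSub O).mul_mem hDm hr₁)) ((serSub O).mul_mem ((serSub O).mul_mem h2m hr₀) hr₁)
  have htot : PowerSeries.expand p hp (qExpansion 1 N) - D ^ (p + 1) = 2 * R := by
    rw [hNeq, sub_eq_iff_eq_add'.mp e₀, sub_eq_iff_eq_add'.mp e₁]
    ring
  have hcoef : ∀ n : ℕ, ∃ x ∈ O, (qExpansion 1 N).coeff n
      = ((PowerSeries.coeff n (deltaInt ^ (p + 1)) : ℤ) : ℂ) + 2 * x := by
    intro n
    refine ⟨PowerSeries.coeff (p * n) R, hRm _, ?_⟩
    have h := congrArg (PowerSeries.coeff (p * n)) htot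
    have h2 : (2 : PowerSeries ℂ) = PowerSeries.C (2 : ℂ) := (map_ofNat _ 2).symm
    rw [map_sub, PowerSeries.coeff_expand_mul, hD, ← map_pow, ← map_pow,
      PowerSeries.coeff_expand_mul, PowerSeries.coeff_map, h2, PowerSeries.coeff_C_mul] at h
    rw [eq_intCast] at h
    linear_combination h
  -- Sturm
  refine Fermat.Agent.S16.LevelOneSturm.false_of_order_gt twoO N (p + 1) ?_ ?_ ?_
  · push_cast
    omega
  · intro n hn
    obtain ⟨x, hx, e⟩ := hcoef n
    rw [e, coeff_deltaInt_pow_of_lt hn, Int.cast_zero, zero_add]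
    exact mem_twoO.mpr ⟨x, hx, rfl⟩
  · obtain ⟨x, hx, e⟩ := hcoef (p + 1)
    rw [e, coeff_deltaInt_pow_self, Int.cast_one]
    exact one_add_notMem_twoO hx

/-- **Case (D)** from the norm theorem. -/
theorem caseD_of_traceNorm (p : ℕ) [hpF : Fact p.Prime] (h8 : 8 ∣ p + 1)
    (hN : ∀ G : ModularForm (Gamma0 p) 2, TraceNorm p hpF.out.ne_zero G) : NoConst p 2 3 :=
  fun G => caseD_of_norm p h8 G (hN G)

end CaseD

/-- **Case (D)**: for `8 ∣ p + 1` there is no `G ∈ M₂(Γ₀(p))` with `q`-expansion in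
`1 + 8 q ℤ_(2)[[q]]`. -/
theorem caseD (p : ℕ) [Fact p.Prime] (h : 8 ∣ p + 1) : NoConst p 2 3 :=
  CaseD.caseD_of_traceNorm p h fun G => Fermat.Agent.S16.TraceBridge.traceNorm G

end Fermat.Agent.S16.NE
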